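/-
S48 programme, chapter (DS-d) RANKIN, part 1 (helper65): Bessel's inequality on horizontal lines.

Mathlib only.  For a modular form `f` of any weight for a group `Γ` with strict period `1`
(`aₙ := (qExpansion 1 f).coeff n`):

* `coeff_eq_exp_mul_fourierCoeffOn` : `aₙ = exp (2 π n y) * (n-th Fourier coefficient on [0,1] of u ↦ f (u + i y))`;
* `sum_norm_sq_coeff_mul_exp_le_of_bound` (Bessel): if `‖f‖ ≤ B` on the line `Im τ = y` then
  `∑_{n ∈ S} ‖aₙ‖² exp (-4 π n y) ≤ B²` for every finite `S`;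
* `exists_sum_norm_sq_coeff_le` : for a cusp form of weight `k` for an arithmetic `Γ`,
  `∑_{n ≤ M} ‖aₙ‖² ≤ C * M ^ k`  (take `y = 1 / M` and Mathlib's `CuspFormClass.exists_bound`);
* `one_mem_strictPeriods_Gamma1`.
-/
import Mathlib

set_option autoImplicit false

open UpperHalfPlane ModularFormClass Complex MeasureTheory
open scoped Real MatrixGroups

namespace Fermat.Agent.DS.Rankin.Bessel65

/-- The horizontal line at height `y` in the upper half-plane. -/
noncomputable def line (y : ℝ) (hy : 0 < y) (u : ℝ) : ℍ :=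
  ⟨(u : ℂ) + (y : ℂ) * Complex.I, by simpa using hy⟩

theorem line_im (y : ℝ) (hy : 0 < y) (u : ℝ) : (line y hy u).im = y := by
  change ((u : ℂ) + (y : ℂ) * Complex.I).im = y
  simp

theorem continuous_line (y : ℝ) (hy : 0 < y) : Continuous (line y hy) := by
  rw [UpperHalfPlane.isEmbedding_coe.continuous_iff]
  change Continuous fun u : ℝ => (u : ℂ) + (y : ℂ) * Complex.I
  fun_prop

variable {k : ℤ} {Γ : Subgroup (GL (Fin 2) ℝ)} {F : Type*} [FunLike F ℍ ℂ]

/-- The `n`-th `q`-expansion coefficient is `exp (2 π n y)` times the `n`-th Fourier coefficient of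
the restriction of `f` to the horizontal line of height `y`. -/
theorem coeff_eq_exp_mul_fourierCoeffOn [ModularFormClass F Γ k] (f : F)
    (hΓ : (1 : ℝ) ∈ Γ.strictPeriods) (y : ℝ) (hy : 0 < y) (n : ℕ) :
    (qExpansion 1 f).coeff n =
      Complex.exp (2 * π * n * y) *
        fourierCoeffOn (zero_lt_one' ℝ) (fun u => f (line y hy u)) (n : ℤ) := by
  rw [ModularFormClass.qExpansion_coeff_eq_intervalIntegral f one_pos hΓ n hy,
    fourierCoeffOn_eq_integral]
  simp only [sub_zero, div_one, one_smul, Complex.ofReal_one, one_mul, smul_eq_mul]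
  rw [← intervalIntegral.integral_const_mul]
  refine intervalIntegral.integral_congr fun u _ => ?_
  simp only [fourier_coe_apply, Function.Periodic.qParam]
  change _ * f (line y hy u) = _
  rw [← mul_assoc]
  congr 1
  rw [one_div, ← Complex.exp_nat_mul, ← Complex.exp_neg, ← Complex.exp_add]
  congr 1
  push_cast
  ring_nf
  rw [Complex.I_sq]
  ring

/-- **Bessel's inequality on a horizontal line**: if `‖f τ‖ ≤ B` on the line `Im τ = y`, then
`∑ ‖aₙ‖² exp (-4 π n y) ≤ B²`. -/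
theorem sum_norm_sq_coeff_mul_exp_le_of_bound [ModularFormClass F Γ k] (f : F)
    (hΓ : (1 : ℝ) ∈ Γ.strictPeriods) (y : ℝ) (hy : 0 < y) (B : ℝ)
    (hB : ∀ u : ℝ, ‖f (line y hy u)‖ ≤ B) (S : Finset ℕ) :
    ∑ n ∈ S, ‖(qExpansion 1 f).coeff n‖ ^ 2 * Real.exp (-(4 * π * n * y)) ≤ B ^ 2 := by
  set g : ℝ → ℂ := fun u => f (line y hy u) with hg
  have hgc : Continuous g := (ModularFormClass.continuous f).comp (continuous_line y hy)
  have hmem : MemLp g 2 (volume.restrict (Set.Ioc (0:ℝ) 1)) :=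
    MemLp.of_bound hgc.aestronglyMeasurable B (Filter.Eventually.of_forall hB)
  have hsum := hasSum_sq_fourierCoeffOn (zero_lt_one' ℝ) hmem
  simp only [sub_zero, inv_one, one_smul] at hsum
  have hint : ∫ x in (0:ℝ)..1, ‖g x‖ ^ 2 ≤ B ^ 2 := by
    have h1 : ∫ x in (0:ℝ)..1, ‖g x‖ ^ 2 ≤ ∫ _x in (0:ℝ)..1, B ^ 2 := by
      apply intervalIntegral.integral_mono_on zero_le_one
      · exact (hgc.norm.pow 2).intervalIntegrable _ _
      · exact continuous_const.intervalIntegrable _ _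
      · intro x _
        exact pow_le_pow_left₀ (norm_nonneg _) (hB x) 2
    simpa using h1
  have hterm : ∀ n : ℕ, ‖(qExpansion 1 f).coeff n‖ ^ 2 * Real.exp (-(4 * π * n * y)) =
      ‖fourierCoeffOn (zero_lt_one' ℝ) g (n : ℤ)‖ ^ 2 := by
    intro n
    rw [coeff_eq_exp_mul_fourierCoeffOn f hΓ y hy n, norm_mul, mul_pow, Complex.norm_exp]
    have : (2 * (π : ℂ) * n * y).re = 2 * π * n * y := by
      simp
    rw [this, ← Real.exp_nat_mul, mul_comm, ← mul_assoc, ← Real.exp_add]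
    have : -(4 * π * ↑n * y) + ((2 : ℕ) : ℝ) * (2 * π * ↑n * y) = 0 := by push_cast; ring
    rw [this, Real.exp_zero, one_mul]
  calc ∑ n ∈ S, ‖(qExpansion 1 f).coeff n‖ ^ 2 * Real.exp (-(4 * π * n * y))
      = ∑ n ∈ S, ‖fourierCoeffOn (zero_lt_one' ℝ) g (n : ℤ)‖ ^ 2 :=
        Finset.sum_congr rfl fun n _ => hterm n
    _ = ∑ i ∈ S.map Nat.castEmbedding, ‖fourierCoeffOn (zero_lt_one' ℝ) g i‖ ^ 2 := by
        rw [Finset.sum_map]; rfl
    _ ≤ ∫ x in (0:ℝ)..1, ‖g x‖ ^ 2 :=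
        sum_le_hasSum _ (fun _ _ => by positivity) hsum
    _ ≤ B ^ 2 := hint

/-- For a cusp form of weight `k` (period `1`), `∑_{n ≤ M} ‖aₙ‖² = O(M ^ k)`. -/
theorem exists_sum_norm_sq_coeff_le [Γ.IsArithmetic] [CuspFormClass F Γ k] (f : F)
    (hΓ : (1 : ℝ) ∈ Γ.strictPeriods) :
    ∃ C : ℝ, 0 ≤ C ∧ ∀ M : ℕ, 1 ≤ M →
      ∑ n ∈ Finset.range (M + 1), ‖(qExpansion 1 f).coeff n‖ ^ 2 ≤ C * (M : ℝ) ^ (k : ℝ) := by
  obtain ⟨C, hC⟩ := CuspFormClass.exists_bound (k := k) (Γ := Γ) f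
  refine ⟨Real.exp (4 * π) * C ^ 2, by positivity, fun M hM => ?_⟩
  have hM0 : (0 : ℝ) < M := by exact_mod_cast hM
  have hy : (0 : ℝ) < 1 / M := by positivity
  set B : ℝ := C / (1 / (M : ℝ)) ^ ((k : ℝ) / 2) with hBdef
  have hB : ∀ u : ℝ, ‖f (line (1 / M) hy u)‖ ≤ B := by
    intro u
    have := hC (line (1 / M) hy u)
    rwa [line_im] at this
  have key := sum_norm_sq_coeff_mul_exp_le_of_bound f hΓ (1 / M) hy B hB (Finset.range (M + 1))
  have hB2 : B ^ 2 = C ^ 2 * (M : ℝ) ^ (k : ℝ) := by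
    rw [hBdef, div_pow, ← Real.rpow_natCast (((1 : ℝ) / M) ^ ((k : ℝ) / 2)) 2,
      ← Real.rpow_mul hy.le]
    have : (k : ℝ) / 2 * ((2 : ℕ) : ℝ) = k := by push_cast; ring
    rw [this, one_div, Real.inv_rpow hM0.le, div_inv_eq_mul]
  have hlow : ∑ n ∈ Finset.range (M + 1), ‖(qExpansion 1 f).coeff n‖ ^ 2 * Real.exp (-(4 * π)) ≤
      ∑ n ∈ Finset.range (M + 1),
        ‖(qExpansion 1 f).coeff n‖ ^ 2 * Real.exp (-(4 * π * n * (1 / (M : ℝ)))) := by
    refine Finset.sum_le_sum fun n hn => ?_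
    have hn' : (n : ℝ) ≤ M := by
      have := Finset.mem_range.mp hn
      exact_mod_cast Nat.lt_succ_iff.mp this
    refine mul_le_mul_of_nonneg_left (Real.exp_le_exp.mpr ?_) (by positivity)
    have : 4 * π * n * (1 / (M : ℝ)) ≤ 4 * π := by
      rw [mul_one_div, div_le_iff₀ hM0]
      have := Real.pi_pos
      nlinarith
    linarith
  rw [← Finset.sum_mul] at hlow
  have h2 := hlow.trans (key.trans_eq hB2)
  have hexp : Real.exp (4 * π) * Real.exp (-(4 * π)) = 1 := by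
    rw [← Real.exp_add]; simp
  calc ∑ n ∈ Finset.range (M + 1), ‖(qExpansion 1 f).coeff n‖ ^ 2
      = Real.exp (4 * π) * ((∑ n ∈ Finset.range (M + 1), ‖(qExpansion 1 f).coeff n‖ ^ 2) *
          Real.exp (-(4 * π))) := by
        rw [mul_comm, mul_assoc, mul_comm (Real.exp (-(4 * π))), hexp, mul_one]
    _ ≤ Real.exp (4 * π) * (C ^ 2 * (M : ℝ) ^ (k : ℝ)) :=
        mul_le_mul_of_nonneg_left h2 (by positivity)
    _ = Real.exp (4 * π) * C ^ 2 * (M : ℝ) ^ (k : ℝ) := by ring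

/-- `1` is a strict period of `Γ₁(N)`. -/
theorem one_mem_strictPeriods_Gamma1 (N : ℕ) :
    (1 : ℝ) ∈ (Subgroup.map (Matrix.SpecialLinearGroup.mapGL ℝ)
      (CongruenceSubgroup.Gamma1 N)).strictPeriods := by
  have hT : ModularGroup.T ∈ CongruenceSubgroup.Gamma1 N := by
    rw [CongruenceSubgroup.Gamma1_mem]
    simp [ModularGroup.T]
  rw [Subgroup.strictPeriods_eq_zmultiples_one_of_T_mem hT]
  exact AddSubgroup.mem_zmultiples (1 : ℝ)

end Fermat.Agent.DS.Rankin.Bessel65
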