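/-
S48 programme, chapter (DS-d) RANKIN, part 2 (helper65): the elementary Euler-product step.

Mathlib only; no modular forms.  For a nonnegative sequence `b : ℕ → ℝ` (think `b n = ‖aₙ‖²`) with
`b 1 = 1`, linear partial sums `∑_{n ≤ M} b n ≤ C M`, and `b (p n) = b p * b n` for good primes
`p ∤ n`:

* `sum_mul_le_of_partial_le` (Abel summation as an inequality);
* `sum_rpow_neg_le` : `∑_{n < M} (n + 1) ^ (-s) ≤ 1 + 1 / (s - 1)`;
* `prod_one_add_le_sum` : `∏_{p ∈ P} (1 + h p) ≤ ∑_{1 ≤ n ≤ ∏ P} h n` (squarefree Euler product);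
* `prod_one_add_le` : `∏_{p ∈ P} (1 + b p p^{-s}) ≤ 2 C / (s - 1)` on `(1, 2]`;
* `sum_primes_le` (crude Rankin, no a-priori bound on `b p`):
  `∑_{p ∈ P} b p p^{-s} ≤ C / log (1 + C) * (log (1 / (s - 1)) + log (2 C))`;
* `sum_primes_le_sharp` (constant `1`, under `b p ≤ B`):
  `∑_{p ∈ P} b p p^{-s} ≤ log (1 / (s - 1)) + log (2 C) + B ^ 2`.
-/
import Mathlib

set_option autoImplicit false

open scoped Real
open Finset

namespace Fermat.Agent.DS.Rankin.Euler65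

/-- Abel summation inequality: if all partial sums of `c` are nonnegative and `g` is antitone
then `(∑_{n ≤ M} c n) * g M ≤ ∑_{n ≤ M} c n * g n`. -/
theorem sum_mul_antitone_aux (c g : ℕ → ℝ) (hc : ∀ M, 0 ≤ ∑ n ∈ range M, c n)
    (hg : Antitone g) (M : ℕ) :
    (∑ n ∈ range (M + 1), c n) * g M ≤ ∑ n ∈ range (M + 1), c n * g n := by
  induction M with
  | zero => simp
  | succ M ih =>
    rw [sum_range_succ (fun n => c n * g n), sum_range_succ c (M + 1), add_mul]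
    have h1 : (∑ n ∈ range (M + 1), c n) * g (M + 1) ≤ (∑ n ∈ range (M + 1), c n) * g M :=
      mul_le_mul_of_nonneg_left (hg (Nat.le_succ M)) (hc (M + 1))
    linarith

theorem sum_mul_antitone_nonneg (c g : ℕ → ℝ) (hc : ∀ M, 0 ≤ ∑ n ∈ range M, c n)
    (hg : Antitone g) (hg0 : ∀ n, 0 ≤ g n) (M : ℕ) :
    0 ≤ ∑ n ∈ range M, c n * g n := by
  cases M with
  | zero => simp
  | succ M =>
    exact (mul_nonneg (hc (M + 1)) (hg0 M)).trans (sum_mul_antitone_aux c g hc hg M)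

/-- If `∑_{n < M} b n ≤ C * M` for all `M` and `g` is antitone nonnegative, then
`∑_{n < M} b n * g n ≤ C * ∑_{n < M} g n`. -/
theorem sum_mul_le_of_partial_le (b g : ℕ → ℝ) (C : ℝ)
    (hb : ∀ M : ℕ, ∑ n ∈ range M, b n ≤ C * M)
    (hg : Antitone g) (hg0 : ∀ n, 0 ≤ g n) (M : ℕ) :
    ∑ n ∈ range M, b n * g n ≤ C * ∑ n ∈ range M, g n := by
  have key := sum_mul_antitone_nonneg (fun n => C - b n) g (fun M => by
    rw [sum_sub_distrib]
    simp only [sum_const, card_range, nsmul_eq_mul]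
    have := hb M
    linarith) hg hg0 M
  simp only [sub_mul, sum_sub_distrib, ← mul_sum] at key
  linarith

/-- `∑_{n < M} (n + 1) ^ (-s) ≤ 1 + 1 / (s - 1)` for `s > 1`. -/
theorem sum_rpow_neg_le {s : ℝ} (hs : 1 < s) (M : ℕ) :
    ∑ n ∈ range M, ((n : ℝ) + 1) ^ (-s) ≤ 1 + 1 / (s - 1) := by
  have hs1 : 0 < s - 1 := sub_pos.mpr hs
  cases M with
  | zero => simp only [range_zero, sum_empty]; positivity
  | succ m =>
    rw [sum_range_succ']
    simp only [Nat.cast_zero, zero_add, Real.one_rpow]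
    have hanti : AntitoneOn (fun x : ℝ => x ^ (-s)) (Set.Icc (1 : ℝ) (1 + m)) := by
      intro x hx y _ hxy
      exact Real.rpow_le_rpow_of_nonpos (by linarith [hx.1]) hxy (by linarith)
    have h1 := AntitoneOn.sum_le_integral (f := fun x : ℝ => x ^ (-s)) (x₀ := 1) (a := m) hanti
    have h0 : (0 : ℝ) ∉ Set.uIcc (1 : ℝ) (1 + m) := by
      rw [Set.uIcc_of_le (by linarith [(Nat.cast_nonneg m : (0:ℝ) ≤ m)])]
      intro h
      linarith [h.1]
    rw [integral_rpow (Or.inr ⟨by linarith, h0⟩)] at h1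
    have h2 : ((1 + (m : ℝ)) ^ (-s + 1) - 1 ^ (-s + 1)) / (-s + 1) ≤ 1 / (s - 1) := by
      rw [Real.one_rpow, show (-s + 1) = -(s - 1) by ring, div_neg, ← neg_div, neg_sub]
      apply div_le_div_of_nonneg_right _ hs1.le
      have : 0 ≤ (1 + (m : ℝ)) ^ (-(s - 1)) := by positivity
      linarith
    have h3 : ∑ k ∈ range m, (((k + 1 : ℕ) : ℝ) + 1) ^ (-s) =
        ∑ i ∈ range m, (fun x : ℝ => x ^ (-s)) (1 + ((i + 1 : ℕ) : ℝ)) := by
      refine sum_congr rfl fun i _ => ?_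
      simp only [add_comm]
    rw [h3]
    linarith

/-- Squarefree part of the Euler product: for a nonnegative function `h` which is multiplicative
on products of distinct primes of `P`, `∏_{p ∈ P} (1 + h p) ≤ ∑_{1 ≤ n ≤ ∏ P} h n`. -/
theorem prod_one_add_le_sum (h : ℕ → ℝ) (hh : ∀ n, 0 ≤ h n) (P : Finset ℕ)
    (hP : ∀ p ∈ P, p.Prime) (hmul : ∀ A ⊆ P, h (∏ p ∈ A, p) = ∏ p ∈ A, h p) :
    ∏ p ∈ P, (1 + h p) ≤ ∑ n ∈ range (∏ p ∈ P, p), h (n + 1) := by
  classical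
  rw [prod_one_add]
  have hpos : ∀ A ∈ P.powerset, 1 ≤ ∏ p ∈ A, p := fun A hA =>
    Nat.one_le_iff_ne_zero.mpr (prod_ne_zero_iff.mpr fun p hp =>
      (hP p (mem_powerset.mp hA hp)).ne_zero)
  have h1 : ∑ A ∈ P.powerset, ∏ p ∈ A, h p =
      ∑ A ∈ P.powerset, h ((∏ p ∈ A, p) - 1 + 1) := by
    refine sum_congr rfl fun A hA => ?_
    rw [Nat.sub_add_cancel (hpos A hA), hmul A (mem_powerset.mp hA)]
  rw [h1]
  have hinj : Set.InjOn (fun A : Finset ℕ => (∏ p ∈ A, p) - 1) (P.powerset : Set (Finset ℕ)) := by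
    intro A hA B hB hAB
    have hA' := hpos A hA
    have hB' := hpos B hB
    have : ∏ p ∈ A, p = ∏ p ∈ B, p := by
      simp only at hAB
      omega
    have hAp : ∀ p ∈ A, p.Prime := fun p hp => hP p (mem_powerset.mp hA hp)
    have hBp : ∀ p ∈ B, p.Prime := fun p hp => hP p (mem_powerset.mp hB hp)
    rw [← Nat.primeFactors_prod hAp, this, Nat.primeFactors_prod hBp]
  rw [← sum_image (f := fun n => h (n + 1)) hinj]
  refine sum_le_sum_of_subset_of_nonneg ?_ fun n _ _ => hh _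
  intro n hn
  obtain ⟨A, hA, rfl⟩ := mem_image.mp hn
  rw [mem_range]
  have hle : ∏ p ∈ A, p ≤ ∏ p ∈ P, p :=
    prod_le_prod_of_subset_of_one_le' (mem_powerset.mp hA) fun p hp _ => (hP p hp).one_lt.le
  have := hpos A hA
  omega

/-- Concavity of the logarithm: `x * (log (1 + B) / B) ≤ log (1 + x)` for `0 ≤ x ≤ B`. -/
theorem mul_log_div_le_log_one_add {B x : ℝ} (hB : 0 < B) (hx0 : 0 ≤ x) (hxB : x ≤ B) :
    x * (Real.log (1 + B) / B) ≤ Real.log (1 + x) := by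
  have hconc := strictConcaveOn_log_Ioi.concaveOn
  have ht0 : 0 ≤ x / B := div_nonneg hx0 hB.le
  have ht1 : 0 ≤ 1 - x / B := sub_nonneg.mpr ((div_le_one hB).mpr hxB)
  have := hconc.2 (show (1 : ℝ) ∈ Set.Ioi 0 by simp) (show 1 + B ∈ Set.Ioi (0 : ℝ) by
    simp only [Set.mem_Ioi]; linarith) ht1 ht0 (by ring)
  simp only [smul_eq_mul, Real.log_one, mul_zero, zero_add] at this
  have h2 : (1 - x / B) * 1 + x / B * (1 + B) = 1 + x := by
    field_simp
    ring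
  rw [h2] at this
  calc x * (Real.log (1 + B) / B) = x / B * Real.log (1 + B) := by ring
    _ ≤ Real.log (1 + x) := this

/-- Multiplicativity on products of distinct good primes. -/
theorem apply_prod_eq_prod {R : Type*} [CommMonoid R] (b : ℕ → R) (hb1 : b 1 = 1)
    (good : ℕ → Prop)
    (hmul : ∀ p : ℕ, p.Prime → good p → ∀ n : ℕ, ¬ p ∣ n → b (p * n) = b p * b n)
    (A : Finset ℕ) (hA : ∀ p ∈ A, p.Prime ∧ good p) :
    b (∏ p ∈ A, p) = ∏ p ∈ A, b p := by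
  classical
  induction A using Finset.induction_on with
  | empty => simpa using hb1
  | insert q A hq ih =>
    have hqA := hA q (mem_insert_self q A)
    have hA' : ∀ p ∈ A, p.Prime ∧ good p := fun p hp => hA p (mem_insert_of_mem hp)
    rw [prod_insert hq, prod_insert hq, ← ih hA']
    refine hmul q hqA.1 hqA.2 _ ?_
    intro hdvd
    obtain ⟨p, hpA, hqp⟩ := (Prime.dvd_finsetProd_iff hqA.1.prime _).mp hdvd
    have : q = p := (Nat.prime_dvd_prime_iff_eq hqA.1 (hA' p hpA).1).mp hqp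
    exact hq (this ▸ hpA)

/-- `∑_{p ∈ P} p ^ (-t) ≤ 2` for `t ≥ 2` and any finite set `P` of positive integers. -/
theorem sum_rpow_neg_le_two {t : ℝ} (ht : 2 ≤ t) (P : Finset ℕ) (hP : ∀ p ∈ P, 1 ≤ p) :
    ∑ p ∈ P, (p : ℝ) ^ (-t) ≤ 2 := by
  classical
  have h1 : ∑ p ∈ P, (p : ℝ) ^ (-t) = ∑ p ∈ P, (((p - 1 : ℕ) : ℝ) + 1) ^ (-t) := by
    refine sum_congr rfl fun p hp => ?_
    rw [Nat.cast_sub (hP p hp)]
    simp
  have hinj : Set.InjOn (fun p : ℕ => p - 1) (P : Set ℕ) := by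
    intro p hp q hq hpq
    have := hP p hp
    have := hP q hq
    simp only at hpq
    omega
  rw [h1, ← sum_image (f := fun n : ℕ => ((n : ℝ) + 1) ^ (-t)) hinj]
  have hsub : P.image (fun p : ℕ => p - 1) ⊆ range (P.sup id) := by
    intro n hn
    obtain ⟨p, hp, rfl⟩ := mem_image.mp hn
    have h2 : p ≤ P.sup id := Finset.le_sup (f := id) hp
    have := hP p hp
    rw [mem_range]
    omega
  refine (sum_le_sum_of_subset_of_nonneg hsub fun n _ _ => by positivity).trans ?_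
  refine (sum_rpow_neg_le (by linarith : 1 < t) _).trans ?_
  have : 1 / (t - 1) ≤ 1 := by
    rw [div_le_one (by linarith)]
    linarith
  linarith


section Main

variable (b : ℕ → ℝ) (hb : ∀ n, 0 ≤ b n) (hb1 : b 1 = 1) (C : ℝ) (hC : 0 < C)
  (hsum : ∀ M : ℕ, 1 ≤ M → ∑ n ∈ range (M + 1), b n ≤ C * M)
  (good : ℕ → Prop)
  (hmul : ∀ p : ℕ, p.Prime → good p → ∀ n : ℕ, ¬ p ∣ n → b (p * n) = b p * b n)

include hb hb1 hC hsum hmul

/-- The truncated Euler product over good primes is `O(1 / (s - 1))`: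
`∏_{p ∈ P} (1 + b p p^{-s}) ≤ 2 C / (s - 1)` for `1 < s ≤ 2`. -/
theorem prod_one_add_le {s : ℝ} (hs : s ∈ Set.Ioc (1 : ℝ) 2) (P : Finset ℕ)
    (hP : ∀ p ∈ P, p.Prime ∧ good p) :
    ∏ p ∈ P, (1 + b p * (p : ℝ) ^ (-s)) ≤ 2 * C / (s - 1) := by
  classical
  obtain ⟨hs1, hs2⟩ := hs
  have hs0 : 0 < s - 1 := sub_pos.mpr hs1
  set h : ℕ → ℝ := fun n => b n * (n : ℝ) ^ (-s) with hh_def
  have hh : ∀ n, 0 ≤ h n := fun n => mul_nonneg (hb n) (by positivity)
  have hPp : ∀ p ∈ P, p.Prime := fun p hp => (hP p hp).1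
  have hmulh : ∀ A ⊆ P, h (∏ p ∈ A, p) = ∏ p ∈ A, h p := by
    intro A hA
    have hA' : ∀ p ∈ A, p.Prime ∧ good p := fun p hp => hP p (hA hp)
    simp only [hh_def]
    rw [apply_prod_eq_prod b hb1 good hmul A hA', prod_mul_distrib, Nat.cast_prod,
      Real.finsetProd_rpow _ _ (fun p _ => Nat.cast_nonneg p)]
  have hprod := prod_one_add_le_sum h hh P hPp hmulh
  have hpart : ∀ M : ℕ, ∑ n ∈ range M, b (n + 1) ≤ C * M := by
    intro M
    rcases Nat.eq_zero_or_pos M with rfl | hM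
    · simp
    · have := hsum M hM
      rw [sum_range_succ'] at this
      linarith [hb 0]
  have hanti : Antitone fun n : ℕ => ((n : ℝ) + 1) ^ (-s) := by
    intro m n hmn
    exact Real.rpow_le_rpow_of_nonpos (by positivity) (by exact_mod_cast Nat.succ_le_succ hmn)
      (by linarith)
  have hdir : ∑ n ∈ range (∏ p ∈ P, p), h (n + 1) ≤ C * (1 + 1 / (s - 1)) := by
    have h1 := sum_mul_le_of_partial_le (fun n => b (n + 1)) (fun n : ℕ => ((n : ℝ) + 1) ^ (-s)) C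
      hpart hanti (fun n => by positivity) (∏ p ∈ P, p)
    have h2 := sum_rpow_neg_le hs1 (∏ p ∈ P, p)
    have h3 : ∑ n ∈ range (∏ p ∈ P, p), h (n + 1) =
        ∑ n ∈ range (∏ p ∈ P, p), b (n + 1) * ((n : ℝ) + 1) ^ (-s) := by
      refine sum_congr rfl fun n _ => ?_
      simp only [hh_def, Nat.cast_add, Nat.cast_one]
    rw [h3]
    exact h1.trans (mul_le_mul_of_nonneg_left h2 hC.le)
  have hzeta : C * (1 + 1 / (s - 1)) ≤ 2 * C / (s - 1) := by
    have : 1 + 1 / (s - 1) = s / (s - 1) := by field_simp; ring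
    rw [this, mul_div_assoc', div_le_div_iff_of_pos_right hs0]
    nlinarith
  exact hprod.trans (hdir.trans hzeta)

omit hb1 hmul in
/-- `b p p^{-s} ≤ C` for every prime `p` and `s ≥ 1`. -/
theorem term_le {s : ℝ} (hs1 : 1 ≤ s) {p : ℕ} (hp : p.Prime) :
    b p * (p : ℝ) ^ (-s) ≤ C := by
  have hp1 : 1 ≤ p := hp.one_lt.le
  have hp1' : (1 : ℝ) ≤ p := by exact_mod_cast hp1
  have hbp : b p ≤ C * p := by
    refine le_trans ?_ (hsum p hp1)
    exact single_le_sum (f := b) (fun n _ => hb n) (mem_range.mpr (Nat.lt_succ_self p))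
  have hpow : (p : ℝ) ^ (-s) ≤ (p : ℝ) ^ (-1 : ℝ) :=
    Real.rpow_le_rpow_of_exponent_le hp1' (by linarith)
  have hp0 : (0 : ℝ) < p := by linarith
  calc b p * (p : ℝ) ^ (-s) ≤ C * p * (p : ℝ) ^ (-1 : ℝ) :=
        mul_le_mul hbp hpow (by positivity) (by positivity)
    _ = C := by rw [Real.rpow_neg_one]; field_simp

/-- The logarithm of the truncated Euler product. -/
theorem sum_log_one_add_le {s : ℝ} (hs : s ∈ Set.Ioc (1 : ℝ) 2) (P : Finset ℕ)
    (hP : ∀ p ∈ P, p.Prime ∧ good p) :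
    ∑ p ∈ P, Real.log (1 + b p * (p : ℝ) ^ (-s)) ≤
      Real.log (1 / (s - 1)) + Real.log (2 * C) := by
  have hs0 : 0 < s - 1 := sub_pos.mpr hs.1
  have hh : ∀ p : ℕ, 0 ≤ b p * (p : ℝ) ^ (-s) := fun p => mul_nonneg (hb p) (by positivity)
  have hsplit : Real.log (2 * C / (s - 1)) = Real.log (1 / (s - 1)) + Real.log (2 * C) := by
    rw [show 2 * C / (s - 1) = 1 / (s - 1) * (2 * C) by ring,
      Real.log_mul (by positivity) (by positivity)]
  rw [← hsplit, ← Real.log_prod]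
  · refine Real.log_le_log ?_ (prod_one_add_le b hb hb1 C hC hsum good hmul hs P hP)
    exact prod_pos fun p _ => by have := hh p; positivity
  · intro p _
    have := hh p
    positivity

/-- **Abstract Rankin estimate, crude form.**  Let `b : ℕ → ℝ` be nonnegative with `b 1 = 1`,
`∑_{n ≤ M} b n ≤ C M`, and `b (p n) = b p * b n` for good primes `p ∤ n`.  Then for `1 < s ≤ 2` and
every finite set `P` of good primes,
`∑_{p ∈ P} b p * p ^ (-s) ≤ C / log (1 + C) * (log (1 / (s - 1)) + log (2 C))`. -/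
theorem sum_primes_le {s : ℝ} (hs : s ∈ Set.Ioc (1 : ℝ) 2) (P : Finset ℕ)
    (hP : ∀ p ∈ P, p.Prime ∧ good p) :
    ∑ p ∈ P, b p * (p : ℝ) ^ (-s) ≤
      C / Real.log (1 + C) * (Real.log (1 / (s - 1)) + Real.log (2 * C)) := by
  have hh : ∀ p : ℕ, 0 ≤ b p * (p : ℝ) ^ (-s) := fun p => mul_nonneg (hb p) (by positivity)
  have hlogC : 0 < Real.log (1 + C) := Real.log_pos (by linarith)
  have hstep : ∑ p ∈ P, b p * (p : ℝ) ^ (-s) * (Real.log (1 + C) / C) ≤
      Real.log (1 / (s - 1)) + Real.log (2 * C) :=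
    (sum_le_sum fun p hp => mul_log_div_le_log_one_add hC (hh p)
      (term_le b hb C hC hsum hs.1.le (hP p hp).1)).trans
      (sum_log_one_add_le b hb hb1 C hC hsum good hmul hs P hP)
  rw [← sum_mul] at hstep
  calc ∑ p ∈ P, b p * (p : ℝ) ^ (-s)
      = C / Real.log (1 + C) * ((∑ p ∈ P, b p * (p : ℝ) ^ (-s)) * (Real.log (1 + C) / C)) := by
        field_simp
    _ ≤ C / Real.log (1 + C) * (Real.log (1 / (s - 1)) + Real.log (2 * C)) :=
        mul_le_mul_of_nonneg_left hstep (by positivity)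

/-- **Abstract Rankin estimate, sharp form (constant `1`).**  If moreover `b p ≤ B` for all good
primes, then `∑_{p ∈ P} b p * p ^ (-s) ≤ log (1 / (s - 1)) + log (2 C) + B ^ 2`. -/
theorem sum_primes_le_sharp (B : ℝ) (hB : ∀ p : ℕ, p.Prime → good p → b p ≤ B)
    {s : ℝ} (hs : s ∈ Set.Ioc (1 : ℝ) 2) (P : Finset ℕ)
    (hP : ∀ p ∈ P, p.Prime ∧ good p) :
    ∑ p ∈ P, b p * (p : ℝ) ^ (-s) ≤
      Real.log (1 / (s - 1)) + Real.log (2 * C) + B ^ 2 := by
  have hh : ∀ p : ℕ, 0 ≤ b p * (p : ℝ) ^ (-s) := fun p => mul_nonneg (hb p) (by positivity)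
  have hx : ∀ x : ℝ, 0 ≤ x → x ≤ Real.log (1 + x) + x ^ 2 / 2 := by
    intro x hx
    have h1 := Real.le_log_one_add_of_nonneg hx
    have h2 : x - x ^ 2 / 2 ≤ 2 * x / (x + 2) := by
      rw [le_div_iff₀ (by linarith)]
      nlinarith [mul_nonneg (mul_nonneg hx hx) hx]
    linarith
  have hsq : ∀ p ∈ P, (b p * (p : ℝ) ^ (-s)) ^ 2 / 2 ≤ B ^ 2 / 2 * (p : ℝ) ^ (-(2 * s)) := by
    intro p hp
    have hbB := hB p (hP p hp).1 (hP p hp).2
    have hb2 : b p ^ 2 ≤ B ^ 2 := pow_le_pow_left₀ (hb p) hbB 2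
    have hpow : ((p : ℝ) ^ (-s)) ^ 2 = (p : ℝ) ^ (-(2 * s)) := by
      rw [← Real.rpow_natCast, ← Real.rpow_mul (Nat.cast_nonneg p)]
      congr 1
      push_cast
      ring
    rw [mul_pow, hpow]
    have : 0 ≤ (p : ℝ) ^ (-(2 * s)) := by positivity
    nlinarith
  have h2s : ∑ p ∈ P, (p : ℝ) ^ (-(2 * s)) ≤ 2 :=
    sum_rpow_neg_le_two (by linarith [hs.1]) P fun p hp => (hP p hp).1.one_lt.le
  calc ∑ p ∈ P, b p * (p : ℝ) ^ (-s)
      ≤ ∑ p ∈ P, (Real.log (1 + b p * (p : ℝ) ^ (-s)) + B ^ 2 / 2 * (p : ℝ) ^ (-(2 * s))) :=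
        sum_le_sum fun p hp => (hx _ (hh p)).trans (by linarith [hsq p hp])
    _ = ∑ p ∈ P, Real.log (1 + b p * (p : ℝ) ^ (-s)) +
          B ^ 2 / 2 * ∑ p ∈ P, (p : ℝ) ^ (-(2 * s)) := by
        rw [sum_add_distrib, mul_sum]
    _ ≤ Real.log (1 / (s - 1)) + Real.log (2 * C) + B ^ 2 := by
        have h1 := sum_log_one_add_le b hb hb1 C hC hsum good hmul hs P hP
        have h3 : B ^ 2 / 2 * ∑ p ∈ P, (p : ℝ) ^ (-(2 * s)) ≤ B ^ 2 / 2 * 2 :=
          mul_le_mul_of_nonneg_left h2s (by positivity)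
        linarith

end Main

end Fermat.Agent.DS.Rankin.Euler65
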