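/-
S48 programme, chapter (DS-d) RANKIN, part 3 (helper65): the Rankin estimate for weight-one cusp
forms on `Γ₁(N)`, in the vocabulary of the frozen statement S48
(`a n := ModularFormClass.qCoeff g n`).

For ANY `g : CuspForm (Gamma1 N) 1` with `a 1 = 1` which is multiplicative at the primes not
dividing `N` (`a (p n) = a p * a n` for `p ∤ N n`; this is what the relations `hT` of S48 give for
`p ∤ n`, for an arbitrary "character" `χ : ℕ → ℂ`):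

* `exists_sum_norm_sq_qCoeff_le` : `∑_{n ≤ M} ‖a n‖² ≤ C M`;
* `rankin_crude_of_mul` / `rankin_crude` :
  `∃ K C, 0 < K ∧ ∀ s ∈ (1, 2], ∀ P` finite set of primes `∤ N`,
  `∑_{p ∈ P} ‖a p‖² p^{-s} ≤ K log (1 / (s - 1)) + C`;
* `rankin_sharp_of_mul` / `rankin_sharp` : if moreover `‖a p‖ ≤ B` for all primes `p ∤ N`, then
  `∃ C, ∀ s ∈ (1, 2], ∀ P, ∑_{p ∈ P} ‖a p‖² p^{-s} ≤ log (1 / (s - 1)) + C`;
* `sum_rpow_le_of_le_norm_sq` : for `c > 0`, every finite set `P` of primes `∤ N` with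
  `c ≤ ‖a p‖²` has `∑_{p ∈ P} p^{-s} ≤ (K log (1 / (s - 1)) + C) / c`.
-/
import Mathlib
import Fermat.Prelude.Def_FLTPrelim_Modularity
import Fermat.Agent.DS.Rankin.Bessel65
import Fermat.Agent.DS.Rankin.Euler65

set_option autoImplicit false

open CongruenceSubgroup ModularFormClass
open scoped Real MatrixGroups

namespace Fermat.Agent.DS.Rankin.Main65

variable {N : ℕ} [NeZero N]

/-- **Partial sums**: `∑_{n ≤ M} ‖aₙ‖² ≤ C M` for a weight-one cusp form on `Γ₁(N)`. -/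
theorem exists_sum_norm_sq_qCoeff_le (g : CuspForm (Gamma1 N) 1) :
    ∃ C : ℝ, 0 < C ∧ ∀ M : ℕ, 1 ≤ M →
      ∑ n ∈ Finset.range (M + 1), ‖qCoeff g n‖ ^ 2 ≤ C * M := by
  obtain ⟨C, hC0, hC⟩ := Bessel65.exists_sum_norm_sq_coeff_le g
    (Bessel65.one_mem_strictPeriods_Gamma1 N)
  refine ⟨C + 1, by linarith, fun M hM => ?_⟩
  have h := hC M hM
  have hM0 : (0 : ℝ) ≤ M := Nat.cast_nonneg M
  simp only [Int.cast_one, Real.rpow_one] at h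
  calc ∑ n ∈ Finset.range (M + 1), ‖qCoeff g n‖ ^ 2 ≤ C * M := h
    _ ≤ (C + 1) * M := by nlinarith

omit [NeZero N] in
/-- The multiplicativity at good primes which the Hecke relations of S48 give. -/
theorem mul_of_hecke {a : ℕ → ℂ} {χ : ℕ → ℂ}
    (hT : ∀ p : ℕ, p.Prime → ¬ p ∣ N → ∀ n : ℕ,
      a (p * n) + χ p * (if p ∣ n then a (n / p) else 0) = a p * a n) :
    ∀ p : ℕ, p.Prime → ¬ p ∣ N → ∀ n : ℕ, ¬ p ∣ n → a (p * n) = a p * a n := by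
  intro p hp hpN n hpn
  have := hT p hp hpN n
  simpa [hpn] using this

section

variable (g : CuspForm (Gamma1 N) 1) (hg₁ : qCoeff g 1 = 1)
  (hmul : ∀ p : ℕ, p.Prime → ¬ p ∣ N → ∀ n : ℕ, ¬ p ∣ n →
    qCoeff g (p * n) = qCoeff g p * qCoeff g n)

include hg₁ hmul

/-- **Rankin's estimate, crude form** (no a-priori bound on the `a p` needed). -/
theorem rankin_crude_of_mul :
    ∃ K C : ℝ, 0 < K ∧ ∀ s ∈ Set.Ioc (1 : ℝ) 2, ∀ P : Finset ℕ,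
      (∀ p ∈ P, p.Prime ∧ ¬ p ∣ N) →
      ∑ p ∈ P, ‖qCoeff g p‖ ^ 2 * (p : ℝ) ^ (-s) ≤ K * Real.log (1 / (s - 1)) + C := by
  obtain ⟨C, hC0, hC⟩ := exists_sum_norm_sq_qCoeff_le g
  have hlog : 0 < Real.log (1 + C) := Real.log_pos (by linarith)
  refine ⟨C / Real.log (1 + C), C / Real.log (1 + C) * Real.log (2 * C), by positivity,
    fun s hs P hP => ?_⟩
  have := Euler65.sum_primes_le (fun n => ‖qCoeff g n‖ ^ 2) (fun n => by positivity)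
    (by simp [hg₁]) C hC0 hC (fun p => ¬ p ∣ N)
    (fun p hp hpN n hpn => by rw [hmul p hp hpN n hpn, norm_mul, mul_pow]) hs P hP
  linarith [this, mul_add (C / Real.log (1 + C)) (Real.log (1 / (s - 1))) (Real.log (2 * C))]

/-- **Rankin's estimate, sharp form** (constant `1`), under an a-priori bound `‖a p‖ ≤ B`. -/
theorem rankin_sharp_of_mul (B : ℝ) (hB : ∀ p : ℕ, p.Prime → ¬ p ∣ N → ‖qCoeff g p‖ ≤ B) :
    ∃ C : ℝ, ∀ s ∈ Set.Ioc (1 : ℝ) 2, ∀ P : Finset ℕ,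
      (∀ p ∈ P, p.Prime ∧ ¬ p ∣ N) →
      ∑ p ∈ P, ‖qCoeff g p‖ ^ 2 * (p : ℝ) ^ (-s) ≤ Real.log (1 / (s - 1)) + C := by
  obtain ⟨C, hC0, hC⟩ := exists_sum_norm_sq_qCoeff_le g
  refine ⟨Real.log (2 * C) + (B ^ 2) ^ 2, fun s hs P hP => ?_⟩
  have := Euler65.sum_primes_le_sharp (fun n => ‖qCoeff g n‖ ^ 2) (fun n => by positivity)
    (by simp [hg₁]) C hC0 hC (fun p => ¬ p ∣ N)
    (fun p hp hpN n hpn => by rw [hmul p hp hpN n hpn, norm_mul, mul_pow]) (B ^ 2)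
    (fun p hp hpN => pow_le_pow_left₀ (norm_nonneg _) (hB p hp hpN) 2) hs P hP
  linarith

/-- **Density form**: the primes with `‖a p‖² ≥ c` are sparse. -/
theorem sum_rpow_le_of_le_norm_sq :
    ∃ K C : ℝ, 0 < K ∧ ∀ c : ℝ, 0 < c → ∀ s ∈ Set.Ioc (1 : ℝ) 2, ∀ P : Finset ℕ,
      (∀ p ∈ P, p.Prime ∧ ¬ p ∣ N ∧ c ≤ ‖qCoeff g p‖ ^ 2) →
      ∑ p ∈ P, (p : ℝ) ^ (-s) ≤ (K * Real.log (1 / (s - 1)) + C) / c := by
  obtain ⟨K, C, hK, h⟩ := rankin_crude_of_mul g hg₁ hmul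
  refine ⟨K, C, hK, fun c hc s hs P hP => ?_⟩
  rw [le_div_iff₀ hc, Finset.sum_mul]
  refine le_trans (Finset.sum_le_sum fun p hp => ?_) (h s hs P fun p hp => ⟨(hP p hp).1, (hP p hp).2.1⟩)
  rw [mul_comm]
  exact mul_le_mul_of_nonneg_right (hP p hp).2.2 (by positivity)

end

section Hecke

variable (g : CuspForm (Gamma1 N) 1) (hg₁ : qCoeff g 1 = 1) (χ : ℕ → ℂ)
  (hT : ∀ p : ℕ, p.Prime → ¬ p ∣ N → ∀ n : ℕ,
    qCoeff g (p * n) + χ p * (if p ∣ n then qCoeff g (n / p) else 0) =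
      qCoeff g p * qCoeff g n)

include hg₁ hT

/-- **Rankin's estimate, crude form**, from the Hecke relations of S48 (any `χ`). -/
theorem rankin_crude :
    ∃ K C : ℝ, 0 < K ∧ ∀ s ∈ Set.Ioc (1 : ℝ) 2, ∀ P : Finset ℕ,
      (∀ p ∈ P, p.Prime ∧ ¬ p ∣ N) →
      ∑ p ∈ P, ‖qCoeff g p‖ ^ 2 * (p : ℝ) ^ (-s) ≤ K * Real.log (1 / (s - 1)) + C :=
  rankin_crude_of_mul g hg₁ (mul_of_hecke hT)

/-- **Rankin's estimate, sharp form**, from the Hecke relations of S48 (any `χ`). -/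
theorem rankin_sharp (B : ℝ) (hB : ∀ p : ℕ, p.Prime → ¬ p ∣ N → ‖qCoeff g p‖ ≤ B) :
    ∃ C : ℝ, ∀ s ∈ Set.Ioc (1 : ℝ) 2, ∀ P : Finset ℕ,
      (∀ p ∈ P, p.Prime ∧ ¬ p ∣ N) →
      ∑ p ∈ P, ‖qCoeff g p‖ ^ 2 * (p : ℝ) ^ (-s) ≤ Real.log (1 / (s - 1)) + C :=
  rankin_sharp_of_mul g hg₁ (mul_of_hecke hT) B hB

end Hecke

end Fermat.Agent.DS.Rankin.Main65
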