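/-
S48 (Deligne–Serre), chapter (DS-d) RANKIN, file 2: the mean-square bound
`∑_{n ≤ X} ‖a n‖² ≤ C · X ^ k` for the `q`-expansion coefficients of a weight `k`
cusp form (strict period `1`), by Parseval on the horizontal line `Im τ = 1 / X`.
Mathlib only.
-/
import Mathlib.NumberTheory.ModularForms.Bounds
import Mathlib.NumberTheory.ModularForms.QExpansion
import Mathlib.Analysis.Fourier.AddCircle

set_option autoImplicit false

namespace Fermat.Agent.DS.Rankin.Bessel87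

open UpperHalfPlane hiding I
open Complex MeasureTheory
open scoped Real

local notation "𝕢" => Function.Periodic.qParam

/-- Restriction of a function on the upper half-plane to the horizontal line `Im τ = t`. -/
noncomputable def lineFn (f : ℍ → ℂ) (t : ℝ) (ht : 0 < t) (u : ℝ) : ℂ :=
  f ⟨(u : ℂ) + t * I, by simpa using ht⟩

theorem lineFn_continuous {f : ℍ → ℂ} (hf : Continuous f) (t : ℝ) (ht : 0 < t) :
    Continuous (lineFn f t ht) := by
  unfold lineFn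
  exact hf.comp (Continuous.upperHalfPlaneMk (by fun_prop) _)

theorem lineFn_im (t : ℝ) (ht : 0 < t) (u : ℝ) :
    (⟨(u : ℂ) + t * I, by simpa using ht⟩ : ℍ).im = t := by
  simp [UpperHalfPlane.im]

/-- The `n`-th Fourier coefficient of `f` along the line `Im τ = t` is `a n · e^{-2π n t}`. -/
theorem fourierCoeffOn_lineFn {k : ℤ} {Γ : Subgroup (GL (Fin 2) ℝ)} {F : Type*} [FunLike F ℍ ℂ]
    [ModularFormClass F Γ k] (f : F) (hΓ : (1 : ℝ) ∈ Γ.strictPeriods) (t : ℝ) (ht : 0 < t)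
    (n : ℕ) :
    fourierCoeffOn (zero_lt_one' ℝ) (lineFn f t ht) n =
      (qExpansion 1 f).coeff n * (Real.exp (-2 * π * n * t) : ℂ) := by
  rw [fourierCoeffOn_eq_integral,
    ModularFormClass.qExpansion_coeff_eq_intervalIntegral f one_pos hΓ n ht]
  simp only [sub_zero, div_one, one_smul, smul_eq_mul, Complex.ofReal_one, one_mul]
  rw [← intervalIntegral.integral_mul_const]
  refine intervalIntegral.integral_congr fun x _ => ?_
  simp only [lineFn]
  rw [fourier_coe_apply, Function.Periodic.qParam, ← Complex.exp_nat_mul, one_div,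
    ← Complex.exp_neg, Complex.ofReal_exp]
  have key : cexp (2 * ↑π * I * ↑(-(n : ℤ)) * ↑x / ↑((1 : ℝ) - 0)) =
      cexp (-(↑n * (2 * ↑π * I * (↑x + ↑t * I) / ↑(1 : ℝ)))) * cexp ↑(-2 * π * ↑n * t) := by
    rw [← Complex.exp_add]
    congr 1
    push_cast
    have := I_sq
    linear_combination (2 * (π : ℂ) * n * t) * this
  rw [key]
  ring

/-- Bessel's inequality on `[0,1]` for a bounded continuous function, restricted to the
nonnegative frequencies `< M`. -/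
theorem bessel_range {g : ℝ → ℂ} (hg : Continuous g) {B : ℝ} (hB : ∀ u, ‖g u‖ ≤ B) (M : ℕ) :
    ∑ n ∈ Finset.range M, ‖fourierCoeffOn (zero_lt_one' ℝ) g (n : ℤ)‖ ^ 2 ≤ B ^ 2 := by
  have hB0 : 0 ≤ B := (norm_nonneg _).trans (hB 0)
  have hL2 : MemLp g 2 (volume.restrict (Set.Ioc (0 : ℝ) 1)) :=
    MemLp.of_bound hg.aestronglyMeasurable B (Filter.Eventually.of_forall hB)
  have hsum := hasSum_sq_fourierCoeffOn (zero_lt_one' ℝ) hL2
  have h1 : ∑ n ∈ Finset.range M, ‖fourierCoeffOn (zero_lt_one' ℝ) g (n : ℤ)‖ ^ 2 =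
      ∑ i ∈ (Finset.range M).map Nat.castEmbedding,
        ‖fourierCoeffOn (zero_lt_one' ℝ) g i‖ ^ 2 := by
    rw [Finset.sum_map]
    rfl
  rw [h1]
  refine (sum_le_hasSum _ (fun i _ => by positivity) hsum).trans ?_
  simp only [sub_zero, inv_one, one_smul]
  have h2 : ∫ x in (0 : ℝ)..1, ‖g x‖ ^ 2 ≤ ∫ _x in (0 : ℝ)..1, B ^ 2 := by
    refine intervalIntegral.integral_mono_on zero_le_one ?_ ?_ fun x _ => ?_
    · exact (hg.norm.pow 2).intervalIntegrable _ _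
    · exact continuous_const.intervalIntegrable _ _
    · exact pow_le_pow_left₀ (norm_nonneg _) (hB x) 2
  refine h2.trans (le_of_eq ?_)
  simp

/-- Weighted mean-square bound: `∑_{n < M} ‖a n‖² e^{-4π n t} ≤ C₀ / t ^ k` for all `t > 0`. -/
theorem sum_sq_mul_exp_le {k : ℤ} {Γ : Subgroup (GL (Fin 2) ℝ)} [Γ.IsArithmetic] {F : Type*}
    [FunLike F ℍ ℂ] [CuspFormClass F Γ k] (f : F) (hΓ : (1 : ℝ) ∈ Γ.strictPeriods) :
    ∃ C₀ : ℝ, 0 ≤ C₀ ∧ ∀ t : ℝ, 0 < t → ∀ M : ℕ,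
      ∑ n ∈ Finset.range M, ‖(qExpansion 1 f).coeff n‖ ^ 2 * Real.exp (-4 * π * n * t) ≤
        C₀ / t ^ (k : ℝ) := by
  obtain ⟨C, hC⟩ := CuspFormClass.exists_bound (k := k) (Γ := Γ) f
  refine ⟨C ^ 2, sq_nonneg C, fun t ht M => ?_⟩
  have hb : ∀ u, ‖lineFn f t ht u‖ ≤ C / t ^ ((k : ℝ) / 2) := fun u => by
    have := hC ⟨(u : ℂ) + t * I, by simpa using ht⟩
    rwa [lineFn_im t ht u] at this
  have hbes := bessel_range (lineFn_continuous (ModularFormClass.continuous (k := k) (Γ := Γ) f)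
    t ht) hb M
  have hterm : ∀ n : ℕ, ‖fourierCoeffOn (zero_lt_one' ℝ) (lineFn f t ht) (n : ℤ)‖ ^ 2 =
      ‖(qExpansion 1 f).coeff n‖ ^ 2 * Real.exp (-4 * π * n * t) := fun n => by
    have h := fourierCoeffOn_lineFn (k := k) (Γ := Γ) f hΓ t ht n
    rw [show ((n : ℕ) : ℤ) = (n : ℤ) from rfl] at *
    rw [h, norm_mul, mul_pow, Complex.norm_real, Real.norm_of_nonneg (Real.exp_pos _).le,
      ← Real.exp_nat_mul]
    congr 2
    push_cast
    ring
  simp only [hterm] at hbes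
  refine hbes.trans (le_of_eq ?_)
  rw [div_pow, ← Real.rpow_natCast (t ^ ((k : ℝ) / 2)) 2, ← Real.rpow_mul ht.le]
  congr 2
  push_cast
  ring

/-- **Mean-square bound** (Rankin's trivial bound / Hecke): for a weight `k` cusp form with
strict period `1`, `∑_{n ≤ X} ‖a n‖² ≤ C · X ^ k` for all `X ≥ 1`. -/
theorem sum_sq_le_rpow {k : ℤ} {Γ : Subgroup (GL (Fin 2) ℝ)} [Γ.IsArithmetic] {F : Type*}
    [FunLike F ℍ ℂ] [CuspFormClass F Γ k] (f : F) (hΓ : (1 : ℝ) ∈ Γ.strictPeriods) :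
    ∃ C : ℝ, 0 ≤ C ∧ ∀ X : ℕ, 1 ≤ X →
      ∑ n ∈ Finset.range (X + 1), ‖(qExpansion 1 f).coeff n‖ ^ 2 ≤ C * (X : ℝ) ^ (k : ℝ) := by
  obtain ⟨C₀, hC₀, h⟩ := sum_sq_mul_exp_le (k := k) (Γ := Γ) f hΓ
  refine ⟨Real.exp (4 * π) * C₀, by positivity, fun X hX => ?_⟩
  have hXpos : (0 : ℝ) < X := by exact_mod_cast hX
  have ht : (0 : ℝ) < 1 / X := by positivity
  have h1 := h (1 / X) ht (X + 1)
  have h2 : ∑ n ∈ Finset.range (X + 1), ‖(qExpansion 1 f).coeff n‖ ^ 2 ≤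
      Real.exp (4 * π) * ∑ n ∈ Finset.range (X + 1),
        ‖(qExpansion 1 f).coeff n‖ ^ 2 * Real.exp (-4 * π * n * (1 / X)) := by
    rw [Finset.mul_sum]
    refine Finset.sum_le_sum fun n hn => ?_
    have hn' : (n : ℝ) ≤ X := by
      exact_mod_cast Nat.lt_succ_iff.mp (Finset.mem_range.mp hn)
    have h3 : 1 ≤ Real.exp (4 * π) * Real.exp (-4 * π * n * (1 / X)) := by
      rw [← Real.exp_add]
      apply Real.one_le_exp
      have h4 : (n : ℝ) * (1 / X) ≤ 1 := by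
        rw [mul_one_div]
        exact (div_le_one hXpos).mpr hn'
      nlinarith [Real.pi_pos]
    calc ‖(qExpansion 1 f).coeff n‖ ^ 2 = ‖(qExpansion 1 f).coeff n‖ ^ 2 * 1 := (mul_one _).symm
      _ ≤ ‖(qExpansion 1 f).coeff n‖ ^ 2 *
          (Real.exp (4 * π) * Real.exp (-4 * π * n * (1 / X))) :=
        mul_le_mul_of_nonneg_left h3 (by positivity)
      _ = _ := by ring
  refine h2.trans ?_
  have h5 : C₀ / (1 / (X : ℝ)) ^ (k : ℝ) = C₀ * (X : ℝ) ^ (k : ℝ) := by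
    rw [one_div, Real.inv_rpow hXpos.le, div_inv_eq_mul]
  rw [h5] at h1
  calc Real.exp (4 * π) * _ ≤ Real.exp (4 * π) * (C₀ * (X : ℝ) ^ (k : ℝ)) :=
        mul_le_mul_of_nonneg_left h1 (Real.exp_pos _).le
    _ = _ := by ring

/-- **(R1)** Weight one: `∑_{n ≤ X} ‖a n‖² ≤ C · X` for every `X` (including `X = 0`, since
`a 0 = 0`). -/
theorem sum_sq_le_linear {Γ : Subgroup (GL (Fin 2) ℝ)} [Γ.IsArithmetic] {F : Type*}
    [FunLike F ℍ ℂ] [CuspFormClass F Γ 1] (f : F) (hΓ : (1 : ℝ) ∈ Γ.strictPeriods) :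
    ∃ C : ℝ, 0 ≤ C ∧ ∀ X : ℕ,
      ∑ n ∈ Finset.range (X + 1), ‖(qExpansion 1 f).coeff n‖ ^ 2 ≤ C * (X : ℝ) := by
  obtain ⟨C, hC0, hC⟩ := sum_sq_le_rpow (k := 1) (Γ := Γ) f hΓ
  refine ⟨C, hC0, fun X => ?_⟩
  rcases Nat.eq_zero_or_pos X with rfl | hX
  · have h0 : (qExpansion 1 f).coeff 0 = 0 :=
      CuspFormClass.qExpansion_coeff_zero (k := 1) (Γ := Γ) f one_pos hΓ
    simp [h0]
  · have := hC X hX
    simpa using this

end Fermat.Agent.DS.Rankin.Bessel87
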