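/-
S48 programme, chapter (DS-d) RANKIN, part 4 (helper65): the density corollary (R6)
(Deligne–Serre, Prop. 5.?: "for every η > 0 there is a finite set Y such that the set of primes
with `a p ∉ Y` has upper density ≤ η").

Density convention = ES/GAL/SplitDensity16: inequalities on `s ∈ Set.Ioc 1 2` against
`Real.log (1 / (s - 1))`, for arbitrary finite sets `P` of primes.

* `exists_finite_exceptional` (abstract): `K` a number field, `α : ℕ → K` integral, a crude Rankin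
  bound for `p ↦ ‖σ (α p)‖²` for every embedding `σ : K →+* ℂ`  ⟹  for every `η > 0` there are a
  finite `Y ⊆ K` and `C` with `∑_{p ∈ P} p^{-s} ≤ η log (1 / (s - 1)) + C` for all finite sets `P`
  of primes `p ∤ N` with `α p ∉ Y`.
* `exists_finite_exceptional_of_conjugates` : the same with the hypothesis supplied by
  `Main65.rankin_crude_of_mul` applied to a family of conjugate weight-one cusp forms `gσ`.
* `exists_finite_exceptional_qCoeff` : the version for the values `qCoeff f p = ι (α p) ∈ ℂ`.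
-/
import Mathlib
import Fermat.Agent.DS.Rankin.Main65

set_option autoImplicit false

open CongruenceSubgroup ModularFormClass
open scoped Real MatrixGroups

namespace Fermat.Agent.DS.Rankin.Density65

/-- **Density corollary, abstract form.** -/
theorem exists_finite_exceptional (K : Type*) [Field K] [NumberField K] (N : ℕ) (α : ℕ → K)
    (hα : ∀ p : ℕ, p.Prime → ¬ p ∣ N → IsIntegral ℤ (α p))
    (hR : ∀ σ : K →+* ℂ, ∃ Kσ Cσ : ℝ, ∀ s ∈ Set.Ioc (1 : ℝ) 2, ∀ P : Finset ℕ,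
      (∀ p ∈ P, p.Prime ∧ ¬ p ∣ N) →
      ∑ p ∈ P, ‖σ (α p)‖ ^ 2 * (p : ℝ) ^ (-s) ≤ Kσ * Real.log (1 / (s - 1)) + Cσ)
    (η : ℝ) (hη : 0 < η) :
    ∃ Y : Set K, Y.Finite ∧ ∃ C : ℝ, ∀ s ∈ Set.Ioc (1 : ℝ) 2, ∀ P : Finset ℕ,
      (∀ p ∈ P, p.Prime ∧ ¬ p ∣ N ∧ α p ∉ Y) →
      ∑ p ∈ P, (p : ℝ) ^ (-s) ≤ η * Real.log (1 / (s - 1)) + C := by
  classical
  choose Kσ Cσ hKC using hR
  set SK : ℝ := ∑ σ : K →+* ℂ, |Kσ σ| with hSK
  have hSK0 : 0 ≤ SK := Finset.sum_nonneg fun σ _ => abs_nonneg _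
  set c : ℝ := (SK + 1) / η with hc
  have hc0 : 0 < c := by positivity
  refine ⟨{x : K | IsIntegral ℤ x ∧ ∀ φ : K →+* ℂ, ‖φ x‖ ≤ Real.sqrt c},
    NumberField.Embeddings.finite_of_norm_le K ℂ (Real.sqrt c),
    (∑ σ : K →+* ℂ, |Cσ σ|) / c, fun s hs P hP => ?_⟩
  have hlog : 0 ≤ Real.log (1 / (s - 1)) := by
    apply Real.log_nonneg
    rw [le_div_iff₀ (by linarith [hs.1])]
    linarith [hs.2]
  -- every `p ∈ P` has an embedding with `c < ‖σ (α p)‖²`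
  have hbig : ∀ p ∈ P, c ≤ ∑ σ : K →+* ℂ, ‖σ (α p)‖ ^ 2 := by
    intro p hp
    obtain ⟨hpp, hpN, hpY⟩ := hP p hp
    have : ¬ ∀ φ : K →+* ℂ, ‖φ (α p)‖ ≤ Real.sqrt c := fun h => hpY ⟨hα p hpp hpN, h⟩
    rw [not_forall] at this
    obtain ⟨σ, hσ'⟩ := this
    have hσ := not_le.mp hσ'
    have h1 : c ≤ ‖σ (α p)‖ ^ 2 := by
      have := pow_le_pow_left₀ (Real.sqrt_nonneg c) hσ.le 2
      rwa [Real.sq_sqrt hc0.le] at this
    exact h1.trans (Finset.single_le_sum (f := fun σ : K →+* ℂ => ‖σ (α p)‖ ^ 2)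
      (fun _ _ => by positivity) (Finset.mem_univ σ))
  have hP' : ∀ p ∈ P, p.Prime ∧ ¬ p ∣ N := fun p hp => ⟨(hP p hp).1, (hP p hp).2.1⟩
  have h1 : c * ∑ p ∈ P, (p : ℝ) ^ (-s) ≤
      ∑ σ : K →+* ℂ, ∑ p ∈ P, ‖σ (α p)‖ ^ 2 * (p : ℝ) ^ (-s) := by
    rw [Finset.sum_comm, Finset.mul_sum]
    refine Finset.sum_le_sum fun p hp => ?_
    rw [← Finset.sum_mul]
    exact mul_le_mul_of_nonneg_right (hbig p hp) (by positivity)
  have h2 : ∑ σ : K →+* ℂ, ∑ p ∈ P, ‖σ (α p)‖ ^ 2 * (p : ℝ) ^ (-s) ≤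
      SK * Real.log (1 / (s - 1)) + ∑ σ : K →+* ℂ, |Cσ σ| := by
    rw [hSK, Finset.sum_mul, ← Finset.sum_add_distrib]
    refine Finset.sum_le_sum fun σ _ => (hKC σ s hs P hP').trans ?_
    have := mul_le_mul_of_nonneg_right (le_abs_self (Kσ σ)) hlog
    linarith [le_abs_self (Cσ σ)]
  have h3 : ∑ p ∈ P, (p : ℝ) ^ (-s) ≤
      (SK * Real.log (1 / (s - 1)) + ∑ σ : K →+* ℂ, |Cσ σ|) / c := by
    rw [le_div_iff₀ hc0, mul_comm]
    exact h1.trans h2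
  have h4 : SK / c ≤ η := by
    rw [hc, div_div_eq_mul_div, div_le_iff₀ (by linarith)]
    nlinarith
  calc ∑ p ∈ P, (p : ℝ) ^ (-s)
      ≤ (SK * Real.log (1 / (s - 1)) + ∑ σ : K →+* ℂ, |Cσ σ|) / c := h3
    _ = SK / c * Real.log (1 / (s - 1)) + (∑ σ : K →+* ℂ, |Cσ σ|) / c := by ring
    _ ≤ η * Real.log (1 / (s - 1)) + (∑ σ : K →+* ℂ, |Cσ σ|) / c := by
        have := mul_le_mul_of_nonneg_right h4 hlog
        linarith

/-- **Density corollary for a family of conjugate weight-one forms.**  `K` a number field,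
`α p ∈ K` integral, and for every embedding `σ` a cusp form `gσ σ` of weight one on `Γ₁(N)`,
normalised, multiplicative at the primes not dividing `N`, with `a_p (gσ σ) = σ (α p)`. -/
theorem exists_finite_exceptional_of_conjugates (K : Type*) [Field K] [NumberField K]
    {N : ℕ} [NeZero N] (α : ℕ → K)
    (hα : ∀ p : ℕ, p.Prime → ¬ p ∣ N → IsIntegral ℤ (α p))
    (gσ : (K →+* ℂ) → CuspForm (Gamma1 N) 1)
    (h1 : ∀ σ, qCoeff (gσ σ) 1 = 1)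
    (hmul : ∀ σ, ∀ p : ℕ, p.Prime → ¬ p ∣ N → ∀ n : ℕ, ¬ p ∣ n →
      qCoeff (gσ σ) (p * n) = qCoeff (gσ σ) p * qCoeff (gσ σ) n)
    (hcoef : ∀ σ, ∀ p : ℕ, p.Prime → ¬ p ∣ N → qCoeff (gσ σ) p = σ (α p))
    (η : ℝ) (hη : 0 < η) :
    ∃ Y : Set K, Y.Finite ∧ ∃ C : ℝ, ∀ s ∈ Set.Ioc (1 : ℝ) 2, ∀ P : Finset ℕ,
      (∀ p ∈ P, p.Prime ∧ ¬ p ∣ N ∧ α p ∉ Y) →
      ∑ p ∈ P, (p : ℝ) ^ (-s) ≤ η * Real.log (1 / (s - 1)) + C := by
  refine exists_finite_exceptional K N α hα (fun σ => ?_) η hη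
  obtain ⟨Kσ, Cσ, -, h⟩ := Main65.rankin_crude_of_mul (gσ σ) (h1 σ) (hmul σ)
  refine ⟨Kσ, Cσ, fun s hs P hP => ?_⟩
  have := h s hs P hP
  have hrw : ∑ p ∈ P, ‖σ (α p)‖ ^ 2 * (p : ℝ) ^ (-s) =
      ∑ p ∈ P, ‖qCoeff (gσ σ) p‖ ^ 2 * (p : ℝ) ^ (-s) :=
    Finset.sum_congr rfl fun p hp => by rw [hcoef σ p (hP p hp).1 (hP p hp).2]
  rw [hrw]
  exact this

/-- **Density corollary in terms of the complex values `a_p(f) = ι (α p)`**: a finite set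
`Y ⊆ ℂ` such that the primes `p ∤ N` with `a_p(f) ∉ Y` have upper Dirichlet density `≤ η`. -/
theorem exists_finite_exceptional_qCoeff (K : Type*) [Field K] [NumberField K]
    {N : ℕ} [NeZero N] (α : ℕ → K)
    (hα : ∀ p : ℕ, p.Prime → ¬ p ∣ N → IsIntegral ℤ (α p))
    (gσ : (K →+* ℂ) → CuspForm (Gamma1 N) 1)
    (h1 : ∀ σ, qCoeff (gσ σ) 1 = 1)
    (hmul : ∀ σ, ∀ p : ℕ, p.Prime → ¬ p ∣ N → ∀ n : ℕ, ¬ p ∣ n →
      qCoeff (gσ σ) (p * n) = qCoeff (gσ σ) p * qCoeff (gσ σ) n)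
    (hcoef : ∀ σ, ∀ p : ℕ, p.Prime → ¬ p ∣ N → qCoeff (gσ σ) p = σ (α p))
    (a : ℕ → ℂ) (ι : K →+* ℂ) (ha : ∀ p : ℕ, p.Prime → ¬ p ∣ N → a p = ι (α p))
    (η : ℝ) (hη : 0 < η) :
    ∃ Y : Set ℂ, Y.Finite ∧ ∃ C : ℝ, ∀ s ∈ Set.Ioc (1 : ℝ) 2, ∀ P : Finset ℕ,
      (∀ p ∈ P, p.Prime ∧ ¬ p ∣ N ∧ a p ∉ Y) →
      ∑ p ∈ P, (p : ℝ) ^ (-s) ≤ η * Real.log (1 / (s - 1)) + C := by
  obtain ⟨Y, hY, C, h⟩ :=
    exists_finite_exceptional_of_conjugates K α hα gσ h1 hmul hcoef η hη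
  refine ⟨ι '' Y, hY.image ι, C, fun s hs P hP => h s hs P fun p hp => ?_⟩
  obtain ⟨hpp, hpN, hpY⟩ := hP p hp
  refine ⟨hpp, hpN, fun hmem => hpY ?_⟩
  rw [ha p hpp hpN]
  exact Set.mem_image_of_mem ι hmem

end Fermat.Agent.DS.Rankin.Density65
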