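/-
Programme DS (S48, Deligne–Serre), chapter (DS-d) RANKIN, elementary form — helper87.

**Abstract part** (Mathlib only).  For a sequence `a : ℕ → ℂ` with

* `hsum : ∀ X, ∑ n ≤ X, ‖a n‖² ≤ C · X`   (supplied for weight-one cusp forms by Bessel's inequality on
  a horizontal line, `Bessel87`),
* `ha1 : a 1 = 1` and the Hecke relations `hT` at the primes `p ∤ N` (verbatim the hypothesis of S48),

we prove, WITHOUT the Euler factorisation of the local factors (only `L_p(x) ≥ 1 + |a_p|² x`):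

* `dirichlet_le`      : `∑' n, ‖a n‖² n^{-s} ≤ 2C/(s-1)` for `1 < s ≤ 2` (Abel summation);
* `prod_one_add_le`   : `∏_{p ∈ P} (1 + ‖a p‖² p^{-s}) ≤ ∑' n, ‖a n‖² n^{-s}`;
* `rankin_of_bounded` : `∑_{p ∈ P} ‖a p‖² p^{-s} ≤ log (1/(s-1)) + C'` if `‖a p‖ ≤ B` (sharp constant);
* `rankin_crude`      : `∑_{p ∈ P} ‖a p‖² p^{-s} ≤ K · log (1/(s-1)) + C'` in general;
* `density_le`        : `∑_{p ∈ P, ‖a p‖² ≥ c} p^{-s} ≤ (K · log (1/(s-1)) + C')/c`.
-/
import Mathlib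

set_option autoImplicit false

open Finset

namespace Fermat.Agent.DS.Rankin.EulerBound87

/-! ### Partial sums of `ζ(s)` -/

theorem sum_Ico_rpow_neg_le {s : ℝ} (hs : 1 < s) (M : ℕ) (hM : 1 ≤ M) :
    ∑ i ∈ Finset.Ico 1 M, (((i + 1 : ℕ) : ℝ)) ^ (-s) ≤ 1 / (s - 1) := by
  have hanti : AntitoneOn (fun x : ℝ => x ^ (-s)) (Set.Icc ((1 : ℕ) : ℝ) ((M : ℕ) : ℝ)) := by
    intro x hx y hy hxy
    simp only [Set.mem_Icc, Nat.cast_one] at hx hy
    have hx0 : 0 < x := by linarith [hx.1]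
    exact Real.rpow_le_rpow_of_nonpos hx0 hxy (by linarith)
  have h := AntitoneOn.sum_le_integral_Ico hM hanti
  have hM1 : (1 : ℝ) ≤ (M : ℝ) := by exact_mod_cast hM
  have h0 : (0 : ℝ) ∉ Set.uIcc ((1 : ℕ) : ℝ) ((M : ℕ) : ℝ) := by
    rw [Set.uIcc_of_le (by simpa using hM1)]
    simp only [Set.mem_Icc, Nat.cast_one, not_and, not_le]
    intro h1
    linarith
  have hint : ∫ x in ((1 : ℕ) : ℝ)..((M : ℕ) : ℝ), x ^ (-s) =
      ((M : ℝ) ^ (-s + 1) - (1 : ℝ) ^ (-s + 1)) / (-s + 1) := by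
    rw [integral_rpow (Or.inr ⟨by linarith, h0⟩)]
    simp
  rw [hint] at h
  refine h.trans ?_
  rw [Real.one_rpow]
  have hMpos : 0 < (M : ℝ) := by linarith
  have hpow : 0 ≤ (M : ℝ) ^ (-s + 1) := Real.rpow_nonneg hMpos.le _
  have hs1 : 0 < s - 1 := by linarith
  have hrew : ((M : ℝ) ^ (-s + 1) - 1) / (-s + 1) = (1 - (M : ℝ) ^ (-s + 1)) / (s - 1) := by
    have h2 : (-s + 1) = -(s - 1) := by ring
    rw [h2, div_neg, ← neg_div, neg_sub]
  rw [hrew]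
  apply div_le_div_of_nonneg_right _ hs1.le
  linarith

theorem sum_range_add_two (g : ℕ → ℝ) (M : ℕ) :
    ∑ n ∈ Finset.range (M + 2), g n = g 0 + g 1 + ∑ i ∈ Finset.Ico 1 (M + 1), g (i + 1) := by
  induction M with
  | zero => simp [Finset.sum_range_succ]
  | succ M ih =>
    have h2 := Finset.sum_Ico_succ_top (a := 1) (b := M + 1) (by omega) (fun i => g (i + 1))
    rw [Finset.sum_range_succ, ih, h2]
    ring

theorem sum_range_rpow_neg_le {s : ℝ} (hs : 1 < s) (M : ℕ) :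
    ∑ n ∈ Finset.range (M + 1), ((n : ℝ)) ^ (-s) ≤ 1 + 1 / (s - 1) := by
  have hs1 : 0 < s - 1 := by linarith
  have h00 : ((0 : ℕ) : ℝ) ^ (-s) = 0 := by
    rw [Nat.cast_zero, Real.zero_rpow (by linarith)]
  rcases Nat.eq_zero_or_pos M with rfl | hM
  · simp only [zero_add, Finset.range_one, Finset.sum_singleton]
    rw [h00]
    positivity
  · obtain ⟨M', rfl⟩ : ∃ M', M = M' + 1 := ⟨M - 1, by omega⟩
    rw [sum_range_add_two (fun n => ((n : ℝ)) ^ (-s)) M', h00, Nat.cast_one, Real.one_rpow, zero_add]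
    have h1 := sum_Ico_rpow_neg_le hs (M' + 1) (by omega)
    linarith

/-! ### Abel summation -/

section Abel

variable {b : ℕ → ℝ} {C : ℝ}

theorem abel_step (hb : ∀ n, 0 ≤ b n) (hC : ∀ X : ℕ, ∑ n ∈ Finset.range (X + 1), b n ≤ C * X)
    {s : ℝ} (hs : 0 < s) (M : ℕ) :
    ∑ n ∈ Finset.range (M + 1), b n * ((n : ℝ)) ^ (-s) +
        (C * M - ∑ n ∈ Finset.range (M + 1), b n) * (((M + 1 : ℕ) : ℝ)) ^ (-s) ≤
      C * ∑ n ∈ Finset.range (M + 1), ((n : ℝ)) ^ (-s) := by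
  induction M with
  | zero =>
    simp only [zero_add, Finset.range_one, Finset.sum_singleton, Nat.cast_zero, mul_zero, zero_sub,
      Nat.cast_one, Real.one_rpow, mul_one]
    rw [Real.zero_rpow (by linarith)]
    have := hb 0
    simp only [mul_zero, zero_add]
    linarith
  | succ M ih =>
    rw [Finset.sum_range_succ (fun n => b n * ((n : ℝ)) ^ (-s)),
      Finset.sum_range_succ (fun n => ((n : ℝ)) ^ (-s)), Finset.sum_range_succ b]
    set S := ∑ n ∈ Finset.range (M + 1), b n * ((n : ℝ)) ^ (-s) with hS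
    set B := ∑ n ∈ Finset.range (M + 1), b n with hB
    set W := ∑ n ∈ Finset.range (M + 1), ((n : ℝ)) ^ (-s) with hW
    set w1 := (((M + 1 : ℕ) : ℝ)) ^ (-s) with hw1
    set w2 := (((M + 1 + 1 : ℕ) : ℝ)) ^ (-s) with hw2
    have hmono : w2 ≤ w1 := by
      apply Real.rpow_le_rpow_of_nonpos (by positivity) _ (by linarith)
      push_cast; linarith
    have hΔ : 0 ≤ C * ((M + 1 : ℕ) : ℝ) - (B + b (M + 1)) := by
      have := hC (M + 1)
      rw [Finset.sum_range_succ] at this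
      linarith
    have h1 : (C * ((M + 1 : ℕ) : ℝ) - (B + b (M + 1))) * w2 ≤
        (C * ((M + 1 : ℕ) : ℝ) - (B + b (M + 1))) * w1 :=
      mul_le_mul_of_nonneg_left hmono hΔ
    have hcast : ((M + 1 : ℕ) : ℝ) = (M : ℝ) + 1 := by push_cast; ring
    rw [hcast] at h1 hΔ
    have ih' : S + (C * (M : ℝ) - B) * w1 ≤ C * W := ih
    have hcast2 : (((M + 1 : ℕ)) : ℝ) = (M : ℝ) + 1 := hcast
    calc S + b (M + 1) * w1 + (C * ((M + 1 : ℕ) : ℝ) - (B + b (M + 1))) * w2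
        ≤ S + b (M + 1) * w1 + (C * ((M : ℝ) + 1) - (B + b (M + 1))) * w1 := by
          rw [hcast2]; linarith
      _ = (S + (C * (M : ℝ) - B) * w1) + C * w1 := by ring
      _ ≤ C * W + C * w1 := by linarith
      _ = C * (W + w1) := by ring

theorem sum_mul_rpow_le (hb : ∀ n, 0 ≤ b n) (hC : ∀ X : ℕ, ∑ n ∈ Finset.range (X + 1), b n ≤ C * X)
    {s : ℝ} (hs : 1 < s) (M : ℕ) :
    ∑ n ∈ Finset.range (M + 1), b n * ((n : ℝ)) ^ (-s) ≤ C * (1 + 1 / (s - 1)) := by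
  have hC0 : 0 ≤ C := by
    have h1 := hC 1
    have h2 : 0 ≤ ∑ n ∈ Finset.range (1 + 1), b n := Finset.sum_nonneg fun n _ => hb n
    simp only [Nat.cast_one, mul_one] at h1
    linarith
  have h1 := abel_step hb hC (by linarith : (0 : ℝ) < s) M
  have h2 : 0 ≤ (C * M - ∑ n ∈ Finset.range (M + 1), b n) * (((M + 1 : ℕ) : ℝ)) ^ (-s) :=
    mul_nonneg (by linarith [hC M]) (Real.rpow_nonneg (by positivity) _)
  have h3 := sum_range_rpow_neg_le hs M
  have h4 : C * ∑ n ∈ Finset.range (M + 1), ((n : ℝ)) ^ (-s) ≤ C * (1 + 1 / (s - 1)) :=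
    mul_le_mul_of_nonneg_left h3 hC0
  linarith

/-- **Dirichlet series bound**: if `∑_{n ≤ X} b n ≤ C X` then `∑ b n n^{-s} ≤ 2C/(s-1)` on `(1, 2]`. -/
theorem dirichlet_le (hb : ∀ n, 0 ≤ b n) (hC : ∀ X : ℕ, ∑ n ∈ Finset.range (X + 1), b n ≤ C * X)
    {s : ℝ} (hs : 1 < s) (hs2 : s ≤ 2) :
    Summable (fun n : ℕ => b n * ((n : ℝ)) ^ (-s)) ∧
      ∑' n : ℕ, b n * ((n : ℝ)) ^ (-s) ≤ 2 * C / (s - 1) := by
  have hs1 : 0 < s - 1 := by linarith
  have hC0 : 0 ≤ C := by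
    have h1 := hC 1
    have h2 : 0 ≤ ∑ n ∈ Finset.range (1 + 1), b n := Finset.sum_nonneg fun n _ => hb n
    simp only [Nat.cast_one, mul_one] at h1
    linarith
  have hnn : ∀ n : ℕ, 0 ≤ b n * ((n : ℝ)) ^ (-s) := fun n =>
    mul_nonneg (hb n) (Real.rpow_nonneg (by positivity) _)
  have hbound : C * (1 + 1 / (s - 1)) ≤ 2 * C / (s - 1) := by
    have : 1 + 1 / (s - 1) ≤ 2 / (s - 1) := by
      rw [show (1 : ℝ) + 1 / (s - 1) = (s - 1 + 1) / (s - 1) by field_simp]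
      apply div_le_div_of_nonneg_right _ hs1.le
      linarith
    calc C * (1 + 1 / (s - 1)) ≤ C * (2 / (s - 1)) := mul_le_mul_of_nonneg_left this hC0
      _ = 2 * C / (s - 1) := by ring
  have hle : ∀ M : ℕ, ∑ n ∈ Finset.range M, b n * ((n : ℝ)) ^ (-s) ≤ 2 * C / (s - 1) := by
    intro M
    calc ∑ n ∈ Finset.range M, b n * ((n : ℝ)) ^ (-s)
        ≤ ∑ n ∈ Finset.range (M + 1), b n * ((n : ℝ)) ^ (-s) := by
          rw [Finset.sum_range_succ]; linarith [hnn M]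
      _ ≤ C * (1 + 1 / (s - 1)) := sum_mul_rpow_le hb hC hs M
      _ ≤ _ := hbound
  have hsum : Summable (fun n : ℕ => b n * ((n : ℝ)) ^ (-s)) :=
    summable_of_sum_range_le hnn hle
  exact ⟨hsum, Real.tsum_le_of_sum_range_le hnn hle⟩

end Abel

/-! ### Hecke relations and the Euler-product inequality -/

section Euler

/-- The Hecke relations at the primes `p ∤ N` (the hypothesis `hT` of S48 with
`χ p = ε (p : ZMod N)`). -/
def HeckeRel (a : ℕ → ℂ) (N : ℕ) (χ : ℕ → ℂ) : Prop :=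
  ∀ p : ℕ, p.Prime → ¬ p ∣ N → ∀ n : ℕ,
    a (p * n) + χ p * (if p ∣ n then a (n / p) else 0) = a p * a n

variable {a : ℕ → ℂ} {N : ℕ} {χ : ℕ → ℂ}

theorem mul_of_not_dvd (hT : HeckeRel a N χ) {p : ℕ} (hp : p.Prime) (hpN : ¬ p ∣ N) {n : ℕ}
    (hpn : ¬ p ∣ n) : a (p * n) = a p * a n := by
  have h := hT p hp hpN n
  rw [if_neg hpn, mul_zero, add_zero] at h
  exact h

/-- `a` is multiplicative on squarefree products of primes not dividing `N`. -/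
theorem prod_primes (ha1 : a 1 = 1) (hT : HeckeRel a N χ) (P : Finset ℕ)
    (hP : ∀ p ∈ P, p.Prime ∧ ¬ p ∣ N) : a (∏ p ∈ P, p) = ∏ p ∈ P, a p := by
  classical
  induction P using Finset.induction_on with
  | empty => simpa using ha1
  | insert q P hq ih =>
    rw [Finset.prod_insert hq, Finset.prod_insert hq]
    have hqP := hP q (Finset.mem_insert_self q P)
    have hnd : ¬ q ∣ ∏ p ∈ P, p := by
      intro hd
      rw [Prime.dvd_finsetProd_iff hqP.1.prime] at hd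
      obtain ⟨p, hpP, hqp⟩ := hd
      have hp := (hP p (Finset.mem_insert_of_mem hpP)).1
      have hqe : q = p := (Nat.prime_dvd_prime_iff_eq hqP.1 hp).mp hqp
      exact hq (hqe ▸ hpP)
    rw [mul_of_not_dvd hT hqP.1 hqP.2 hnd, ih fun p hp => hP p (Finset.mem_insert_of_mem hp)]

/-- the general term of the Dirichlet series `∑ ‖a n‖² n^{-s}`. -/
noncomputable def term (a : ℕ → ℂ) (s : ℝ) (n : ℕ) : ℝ := ‖a n‖ ^ 2 * ((n : ℝ)) ^ (-s)

theorem term_nonneg (a : ℕ → ℂ) (s : ℝ) (n : ℕ) : 0 ≤ term a s n :=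
  mul_nonneg (sq_nonneg _) (Real.rpow_nonneg (Nat.cast_nonneg n) _)

theorem prod_term (ha1 : a 1 = 1) (hT : HeckeRel a N χ) (s : ℝ) (t : Finset ℕ)
    (ht : ∀ p ∈ t, p.Prime ∧ ¬ p ∣ N) : ∏ p ∈ t, term a s p = term a s (∏ p ∈ t, p) := by
  unfold term
  rw [Finset.prod_mul_distrib, prod_primes ha1 hT t ht, norm_prod, Finset.prod_pow,
    Real.finsetProd_rpow t (fun p => (p : ℝ)) (fun p _ => Nat.cast_nonneg p), Nat.cast_prod]

/-- **Euler-product inequality** (only `L_p(x) ≥ 1 + ‖a p‖² x` is used). -/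
theorem prod_one_add_le (ha1 : a 1 = 1) (hT : HeckeRel a N χ) {s : ℝ}
    (hsum : Summable (term a s)) (P : Finset ℕ) (hP : ∀ p ∈ P, p.Prime ∧ ¬ p ∣ N) :
    ∏ p ∈ P, (1 + term a s p) ≤ ∑' n : ℕ, term a s n := by
  classical
  rw [Finset.prod_one_add]
  have hterm : ∀ t ∈ P.powerset, ∏ p ∈ t, term a s p = term a s (∏ p ∈ t, p) := fun t ht =>
    prod_term ha1 hT s t fun p hp => hP p (Finset.mem_powerset.mp ht hp)
  rw [Finset.sum_congr rfl hterm]
  have hinj : Set.InjOn (fun t : Finset ℕ => ∏ p ∈ t, p) (P.powerset : Set (Finset ℕ)) := by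
    intro t ht t' ht' heq
    have h1 := Nat.primeFactors_prod fun p hp => (hP p (Finset.mem_powerset.mp ht hp)).1
    have h2 := Nat.primeFactors_prod fun p hp => (hP p (Finset.mem_powerset.mp ht' hp)).1
    simp only at heq
    rw [← h1, ← h2, heq]
  rw [← Finset.sum_image (f := term a s) hinj]
  exact hsum.sum_le_tsum _ fun n _ => term_nonneg a s n

theorem sum_log_le (ha1 : a 1 = 1) (hT : HeckeRel a N χ) {s : ℝ}
    (hsum : Summable (term a s)) {D : ℝ} (hD : ∑' n : ℕ, term a s n ≤ D) (P : Finset ℕ)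
    (hP : ∀ p ∈ P, p.Prime ∧ ¬ p ∣ N) :
    ∑ p ∈ P, Real.log (1 + term a s p) ≤ Real.log D := by
  have hpos : ∀ p ∈ P, 0 < 1 + term a s p := fun p _ => by linarith [term_nonneg a s p]
  rw [← Real.log_prod fun p hp => (hpos p hp).ne']
  exact Real.log_le_log (Finset.prod_pos hpos) ((prod_one_add_le ha1 hT hsum P hP).trans hD)

theorem div_one_add_le_log {t : ℝ} (ht : 0 ≤ t) : t / (1 + t) ≤ Real.log (1 + t) := by
  have h := Real.one_sub_inv_le_log_of_pos (by linarith : (0 : ℝ) < 1 + t)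
  have h1 : 1 - (1 + t)⁻¹ = t / (1 + t) := by
    field_simp
    ring
  rwa [h1] at h

theorem sub_sq_le_log {t : ℝ} (ht : 0 ≤ t) : t - t ^ 2 ≤ Real.log (1 + t) := by
  refine le_trans ?_ (div_one_add_le_log ht)
  rw [le_div_iff₀ (by linarith)]
  nlinarith [pow_nonneg ht 3]

theorem rpow_neg_le_inv {p : ℕ} (hp : 1 ≤ p) {s : ℝ} (hs : 1 ≤ s) :
    ((p : ℝ)) ^ (-s) ≤ 1 / (p : ℝ) := by
  have h1 : (1 : ℝ) ≤ (p : ℝ) := by exact_mod_cast hp
  calc ((p : ℝ)) ^ (-s) ≤ ((p : ℝ)) ^ (-1 : ℝ) :=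
        Real.rpow_le_rpow_of_exponent_le h1 (by linarith)
    _ = 1 / (p : ℝ) := by rw [Real.rpow_neg_one, one_div]

theorem sum_inv_sq_le (P : Finset ℕ) : ∑ p ∈ P, (1 : ℝ) / ((p : ℝ)) ^ 2 ≤ Real.pi ^ 2 / 6 := by
  have h := hasSum_zeta_two
  rw [← h.tsum_eq]
  exact h.summable.sum_le_tsum _ fun n _ => by positivity

end Euler

/-! ### The Rankin bounds -/

section Rankin

variable {a : ℕ → ℂ} {N : ℕ} {χ : ℕ → ℂ} {C : ℝ}

/-- the Dirichlet series bound in the form used below. -/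
theorem term_dirichlet_le (hC : ∀ X : ℕ, ∑ n ∈ Finset.range (X + 1), ‖a n‖ ^ 2 ≤ C * X)
    {s : ℝ} (hs : 1 < s) (hs2 : s ≤ 2) :
    Summable (term a s) ∧ ∑' n : ℕ, term a s n ≤ 2 * C / (s - 1) :=
  dirichlet_le (b := fun n => ‖a n‖ ^ 2) (fun _ => sq_nonneg _) hC hs hs2

theorem log_bound {D₀ : ℝ} (hD₀ : 1 ≤ D₀) {s : ℝ} (hs : 1 < s) :
    Real.log (D₀ / (s - 1)) = Real.log (1 / (s - 1)) + Real.log D₀ := by
  have hs1 : 0 < s - 1 := by linarith
  rw [div_eq_mul_inv, Real.log_mul (by linarith) (inv_pos.mpr hs1).ne', one_div, add_comm]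

/-- **Rankin's estimate, sharp constant**, when the `a p` are bounded. -/
theorem rankin_of_bounded (ha1 : a 1 = 1) (hT : HeckeRel a N χ)
    (hC : ∀ X : ℕ, ∑ n ∈ Finset.range (X + 1), ‖a n‖ ^ 2 ≤ C * X)
    (B : ℝ) (hB : ∀ p : ℕ, p.Prime → ¬ p ∣ N → ‖a p‖ ≤ B) :
    ∃ C' : ℝ, ∀ s : ℝ, 1 < s → s ≤ 2 → ∀ P : Finset ℕ, (∀ p ∈ P, p.Prime ∧ ¬ p ∣ N) →
      ∑ p ∈ P, term a s p ≤ Real.log (1 / (s - 1)) + C' := by
  refine ⟨Real.log (2 * max C 1) + B ^ 4 * (Real.pi ^ 2 / 6), fun s hs hs2 P hP => ?_⟩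
  have hs1 : 0 < s - 1 := by linarith
  obtain ⟨hsum, hle⟩ := term_dirichlet_le hC hs hs2
  have hD : ∑' n : ℕ, term a s n ≤ 2 * max C 1 / (s - 1) := by
    refine hle.trans ?_
    apply div_le_div_of_nonneg_right _ hs1.le
    linarith [le_max_left C 1]
  have hlog := sum_log_le ha1 hT hsum hD P hP
  rw [log_bound (by linarith [le_max_right C 1]) hs] at hlog
  have hsq : ∀ p ∈ P, term a s p ^ 2 ≤ B ^ 4 * (1 / ((p : ℝ)) ^ 2) := by
    intro p hp
    have hpp := (hP p hp).1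
    have h1 : ‖a p‖ ≤ B := hB p hpp (hP p hp).2
    have h2 : ‖a p‖ ^ 4 ≤ B ^ 4 := pow_le_pow_left₀ (norm_nonneg _) h1 4
    have h3 : ((p : ℝ)) ^ (-s) ≤ 1 / (p : ℝ) := rpow_neg_le_inv hpp.one_lt.le hs.le
    have h4 : 0 ≤ ((p : ℝ)) ^ (-s) := Real.rpow_nonneg (Nat.cast_nonneg p) _
    have h5 : (((p : ℝ)) ^ (-s)) ^ 2 ≤ (1 / (p : ℝ)) ^ 2 := pow_le_pow_left₀ h4 h3 2
    unfold term
    calc (‖a p‖ ^ 2 * ((p : ℝ)) ^ (-s)) ^ 2 = ‖a p‖ ^ 4 * (((p : ℝ)) ^ (-s)) ^ 2 := by ring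
      _ ≤ B ^ 4 * (1 / (p : ℝ)) ^ 2 :=
          mul_le_mul h2 h5 (sq_nonneg _) ((pow_nonneg (norm_nonneg _) 4).trans h2)
      _ = B ^ 4 * (1 / ((p : ℝ)) ^ 2) := by rw [one_div, one_div, inv_pow]
  have hB4 : 0 ≤ B ^ 4 := by positivity
  calc ∑ p ∈ P, term a s p
      = ∑ p ∈ P, ((term a s p - term a s p ^ 2) + term a s p ^ 2) :=
        Finset.sum_congr rfl fun p _ => by ring
    _ = ∑ p ∈ P, (term a s p - term a s p ^ 2) + ∑ p ∈ P, term a s p ^ 2 :=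
        Finset.sum_add_distrib
    _ ≤ ∑ p ∈ P, Real.log (1 + term a s p) + ∑ p ∈ P, B ^ 4 * (1 / ((p : ℝ)) ^ 2) :=
        add_le_add (Finset.sum_le_sum fun p _ => sub_sq_le_log (term_nonneg a s p))
          (Finset.sum_le_sum hsq)
    _ ≤ (Real.log (1 / (s - 1)) + Real.log (2 * max C 1)) + B ^ 4 * (Real.pi ^ 2 / 6) := by
        rw [← Finset.mul_sum]
        exact add_le_add hlog (mul_le_mul_of_nonneg_left (sum_inv_sq_le P) hB4)
    _ = _ := by ring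

/-- **Rankin's estimate, crude constant** (no a-priori bound on the `a p`). -/
theorem rankin_crude (ha1 : a 1 = 1) (hT : HeckeRel a N χ)
    (hC : ∀ X : ℕ, ∑ n ∈ Finset.range (X + 1), ‖a n‖ ^ 2 ≤ C * X) :
    ∃ K C' : ℝ, 0 < K ∧ ∀ s : ℝ, 1 < s → s ≤ 2 → ∀ P : Finset ℕ,
      (∀ p ∈ P, p.Prime ∧ ¬ p ∣ N) →
      ∑ p ∈ P, term a s p ≤ K * Real.log (1 / (s - 1)) + C' := by
  have hC0 : 0 ≤ C := by
    have h1 := hC 1
    have h2 : 0 ≤ ∑ n ∈ Finset.range (1 + 1), ‖a n‖ ^ 2 := Finset.sum_nonneg fun n _ => sq_nonneg _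
    simp only [Nat.cast_one, mul_one] at h1
    linarith
  refine ⟨1 + C, (1 + C) * Real.log (2 * max C 1), by linarith, fun s hs hs2 P hP => ?_⟩
  have hs1 : 0 < s - 1 := by linarith
  obtain ⟨hsum, hle⟩ := term_dirichlet_le hC hs hs2
  have hD : ∑' n : ℕ, term a s n ≤ 2 * max C 1 / (s - 1) := by
    refine hle.trans ?_
    apply div_le_div_of_nonneg_right _ hs1.le
    linarith [le_max_left C 1]
  have hlog := sum_log_le ha1 hT hsum hD P hP
  rw [log_bound (by linarith [le_max_right C 1]) hs] at hlog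
  -- each term is at most `C`
  have hterm : ∀ p ∈ P, term a s p ≤ C := by
    intro p hp
    have hpp := (hP p hp).1
    have h1 : ‖a p‖ ^ 2 ≤ C * p := by
      refine le_trans ?_ (hC p)
      exact Finset.single_le_sum (f := fun n => ‖a n‖ ^ 2) (fun n _ => sq_nonneg _)
        (Finset.mem_range.mpr (Nat.lt_succ_self p))
    have h3 : ((p : ℝ)) ^ (-s) ≤ 1 / (p : ℝ) := rpow_neg_le_inv hpp.one_lt.le hs.le
    have hp0 : (0 : ℝ) < p := by exact_mod_cast hpp.pos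
    unfold term
    calc ‖a p‖ ^ 2 * ((p : ℝ)) ^ (-s) ≤ (C * p) * (1 / (p : ℝ)) :=
          mul_le_mul h1 h3 (Real.rpow_nonneg hp0.le _) (by positivity)
      _ = C := by field_simp
  have hstep : ∀ p ∈ P, term a s p ≤ (1 + C) * Real.log (1 + term a s p) := by
    intro p hp
    have ht := term_nonneg a s p
    have h1 := div_one_add_le_log ht
    have h2 : term a s p / (1 + C) ≤ term a s p / (1 + term a s p) :=
      div_le_div_of_nonneg_left ht (by linarith) (by linarith [hterm p hp])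
    have h3 : term a s p / (1 + C) ≤ Real.log (1 + term a s p) := h2.trans h1
    rw [div_le_iff₀ (by linarith)] at h3
    linarith
  calc ∑ p ∈ P, term a s p ≤ ∑ p ∈ P, (1 + C) * Real.log (1 + term a s p) :=
        Finset.sum_le_sum hstep
    _ = (1 + C) * ∑ p ∈ P, Real.log (1 + term a s p) := by rw [Finset.mul_sum]
    _ ≤ (1 + C) * (Real.log (1 / (s - 1)) + Real.log (2 * max C 1)) :=
        mul_le_mul_of_nonneg_left hlog (by linarith)
    _ = _ := by ring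

/-- **Density form**: the primes with `‖a p‖² ≥ c` are rare. -/
theorem density_le (ha1 : a 1 = 1) (hT : HeckeRel a N χ)
    (hC : ∀ X : ℕ, ∑ n ∈ Finset.range (X + 1), ‖a n‖ ^ 2 ≤ C * X) :
    ∃ K C' : ℝ, 0 < K ∧ ∀ c : ℝ, 0 < c → ∀ s : ℝ, 1 < s → s ≤ 2 → ∀ P : Finset ℕ,
      (∀ p ∈ P, p.Prime ∧ ¬ p ∣ N ∧ c ≤ ‖a p‖ ^ 2) →
      ∑ p ∈ P, ((p : ℝ)) ^ (-s) ≤ (K * Real.log (1 / (s - 1)) + C') / c := by
  obtain ⟨K, C', hK, h⟩ := rankin_crude ha1 hT hC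
  refine ⟨K, C', hK, fun c hc s hs hs2 P hP => ?_⟩
  rw [le_div_iff₀ hc]
  refine le_trans ?_ (h s hs hs2 P fun p hp => ⟨(hP p hp).1, (hP p hp).2.1⟩)
  rw [Finset.sum_mul]
  refine Finset.sum_le_sum fun p hp => ?_
  unfold term
  rw [mul_comm]
  exact mul_le_mul_of_nonneg_right (hP p hp).2.2 (Real.rpow_nonneg (Nat.cast_nonneg p) _)

end Rankin

end Fermat.Agent.DS.Rankin.EulerBound87
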