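/-
S48 (Deligne–Serre), chapter (DS-d) RANKIN, file 3: the elementary Rankin estimates
(R1)–(R6) instantiated at `f : CuspForm (Gamma1 N) 1` with the hypotheses `hf₁`, `hT` of S48
verbatim.
-/
import Fermat.Agent.DS.Rankin.EulerBound87
import Fermat.Agent.DS.Rankin.Bessel87
import Fermat.Prelude.Def_FLTPrelim_Modularity

set_option autoImplicit false

open CongruenceSubgroup
open scoped MatrixGroups

namespace Fermat.Agent.DS.Rankin.Main87

open Fermat.Agent.DS.Rankin.EulerBound87 Fermat.Agent.DS.Rankin.Bessel87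

theorem one_mem_strictPeriods_Gamma1 (N : ℕ) :
    (1 : ℝ) ∈ (Gamma1 N : Subgroup (GL (Fin 2) ℝ)).strictPeriods := by
  rw [CongruenceSubgroup.strictPeriods_Gamma1]
  exact AddSubgroup.mem_zmultiples 1

/-- **(R1)** Mean-square bound for the `q`-coefficients of a weight one cusp form on `Γ₁(N)`. -/
theorem meanSquare (N : ℕ) [NeZero N] (f : CuspForm (Gamma1 N) 1) :
    ∃ C : ℝ, 0 ≤ C ∧ ∀ X : ℕ,
      ∑ n ∈ Finset.range (X + 1), ‖ModularFormClass.qCoeff f n‖ ^ 2 ≤ C * (X : ℝ) :=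
  sum_sq_le_linear (Γ := (Gamma1 N : Subgroup (GL (Fin 2) ℝ))) f (one_mem_strictPeriods_Gamma1 N)

/-- **(R2)** Dirichlet series bound `∑' ‖a n‖² n^{-s} ≤ 2C/(s-1)` on `(1,2]`. -/
theorem dirichletBound (N : ℕ) [NeZero N] (f : CuspForm (Gamma1 N) 1) :
    ∃ C : ℝ, 0 ≤ C ∧ ∀ s : ℝ, 1 < s → s ≤ 2 →
      Summable (fun n : ℕ => ‖ModularFormClass.qCoeff f n‖ ^ 2 * (n : ℝ) ^ (-s)) ∧
      ∑' n : ℕ, ‖ModularFormClass.qCoeff f n‖ ^ 2 * (n : ℝ) ^ (-s) ≤ 2 * C / (s - 1) := by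
  obtain ⟨C, hC0, hC⟩ := meanSquare N f
  exact ⟨C, hC0, fun s hs hs2 =>
    dirichlet_le (b := fun n => ‖ModularFormClass.qCoeff f n‖ ^ 2) (fun n => sq_nonneg _) hC hs hs2⟩

/-- The hypothesis `hT` of S48 is `HeckeRel`. -/
theorem heckeRel (N : ℕ) [NeZero N] (ε : DirichletCharacter ℂ N) (f : CuspForm (Gamma1 N) 1)
    (hT : ∀ p : ℕ, p.Prime → ¬ p ∣ N → ∀ n : ℕ,
        ModularFormClass.qCoeff f (p * n) +
            ε (p : ZMod N) * (if p ∣ n then ModularFormClass.qCoeff f (n / p) else 0) =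
          ModularFormClass.qCoeff f p * ModularFormClass.qCoeff f n) :
    HeckeRel (fun n => ModularFormClass.qCoeff f n) N (fun p => ε (p : ZMod N)) :=
  hT

/-- **(R4)** Sharp Rankin bound when `‖a p‖ ≤ B` for all `p ∤ N`:
`∑_{p ∈ P} ‖a p‖² p^{-s} ≤ log (1/(s-1)) + C'` uniformly in `s ∈ (1,2]` and finite sets `P` of
primes not dividing `N`. -/
theorem rankin_sharp (N : ℕ) [NeZero N] (ε : DirichletCharacter ℂ N) (f : CuspForm (Gamma1 N) 1)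
    (hf₁ : ModularFormClass.qCoeff f 1 = 1)
    (hT : ∀ p : ℕ, p.Prime → ¬ p ∣ N → ∀ n : ℕ,
        ModularFormClass.qCoeff f (p * n) +
            ε (p : ZMod N) * (if p ∣ n then ModularFormClass.qCoeff f (n / p) else 0) =
          ModularFormClass.qCoeff f p * ModularFormClass.qCoeff f n)
    (B : ℝ) (hB : ∀ p : ℕ, p.Prime → ¬ p ∣ N → ‖ModularFormClass.qCoeff f p‖ ≤ B) :
    ∃ C' : ℝ, ∀ s : ℝ, 1 < s → s ≤ 2 → ∀ P : Finset ℕ, (∀ p ∈ P, p.Prime ∧ ¬ p ∣ N) →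
      ∑ p ∈ P, ‖ModularFormClass.qCoeff f p‖ ^ 2 * (p : ℝ) ^ (-s) ≤
        Real.log (1 / (s - 1)) + C' := by
  obtain ⟨C, _, hC⟩ := meanSquare N f
  exact rankin_of_bounded (a := fun n => ModularFormClass.qCoeff f n) hf₁
    (heckeRel N ε f hT) hC B hB

/-- **(R5)** Crude Rankin bound (no a-priori bound on `‖a p‖` needed):
`∑_{p ∈ P} ‖a p‖² p^{-s} ≤ K · log (1/(s-1)) + C'`. -/
theorem rankin_crude' (N : ℕ) [NeZero N] (ε : DirichletCharacter ℂ N) (f : CuspForm (Gamma1 N) 1)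
    (hf₁ : ModularFormClass.qCoeff f 1 = 1)
    (hT : ∀ p : ℕ, p.Prime → ¬ p ∣ N → ∀ n : ℕ,
        ModularFormClass.qCoeff f (p * n) +
            ε (p : ZMod N) * (if p ∣ n then ModularFormClass.qCoeff f (n / p) else 0) =
          ModularFormClass.qCoeff f p * ModularFormClass.qCoeff f n) :
    ∃ K C' : ℝ, 0 < K ∧ ∀ s : ℝ, 1 < s → s ≤ 2 → ∀ P : Finset ℕ,
      (∀ p ∈ P, p.Prime ∧ ¬ p ∣ N) →
      ∑ p ∈ P, ‖ModularFormClass.qCoeff f p‖ ^ 2 * (p : ℝ) ^ (-s) ≤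
        K * Real.log (1 / (s - 1)) + C' := by
  obtain ⟨C, _, hC⟩ := meanSquare N f
  exact rankin_crude (a := fun n => ModularFormClass.qCoeff f n) hf₁ (heckeRel N ε f hT) hC

/-- **(R6)** Density form: the primes `p ∤ N` with `‖a p‖² ≥ c` have
`∑ p^{-s} ≤ (K · log (1/(s-1)) + C') / c`. -/
theorem density_le' (N : ℕ) [NeZero N] (ε : DirichletCharacter ℂ N) (f : CuspForm (Gamma1 N) 1)
    (hf₁ : ModularFormClass.qCoeff f 1 = 1)
    (hT : ∀ p : ℕ, p.Prime → ¬ p ∣ N → ∀ n : ℕ,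
        ModularFormClass.qCoeff f (p * n) +
            ε (p : ZMod N) * (if p ∣ n then ModularFormClass.qCoeff f (n / p) else 0) =
          ModularFormClass.qCoeff f p * ModularFormClass.qCoeff f n) :
    ∃ K C' : ℝ, 0 < K ∧ ∀ c : ℝ, 0 < c → ∀ s : ℝ, 1 < s → s ≤ 2 → ∀ P : Finset ℕ,
      (∀ p ∈ P, p.Prime ∧ ¬ p ∣ N ∧ c ≤ ‖ModularFormClass.qCoeff f p‖ ^ 2) →
      ∑ p ∈ P, (p : ℝ) ^ (-s) ≤ (K * Real.log (1 / (s - 1)) + C') / c := by
  obtain ⟨C, _, hC⟩ := meanSquare N f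
  exact density_le (a := fun n => ModularFormClass.qCoeff f n) hf₁ (heckeRel N ε f hT) hC

end Fermat.Agent.DS.Rankin.Main87
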